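import Fermat.Agent.TwoAdic.Cohom.Part
import Mathlib.LinearAlgebra.FiniteDimensional.Basic

/-!
# Two copies of a space inside the sum of the parts of a set of systems
-/

set_option autoImplicit false

noncomputable section

open Module

namespace Fermat.Agent.TwoAdic.Cohom

section PairImage

variable {ι K : Type*} [Field K] {V W : Type*} [AddCommGroup V] [Module K V] [AddCommGroup W]
  [Module K W] {T : ι → Module.End K V} {S : ι → Module.End K W}

/-- An injective equivariant map from two copies of a space doubles the parts of a set of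
systems. -/
theorem exists_pairImage_le (f : V × V →ₗ[K] W) (hf : Function.Injective f)
    (h : ∀ i x, f (T i x.1, T i x.2) = S i (f x)) {A : Submodule K V} {C : Set (ι → K)}
    [FiniteDimensional K A] (hA : A ≤ ⨆ c ∈ C, part T c) :
    ∃ B : Submodule K W, finrank K B = 2 * finrank K A ∧ B ≤ ⨆ c ∈ C, part S c := by
  refine ⟨LinearMap.range (f.comp (A.subtype.prodMap A.subtype)), ?_, ?_⟩
  · rw [LinearMap.finrank_range_of_inj, Module.finrank_prod, two_mul]
    exact hf.comp (Subtype.val_injective.prodMap Subtype.val_injective)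
  · have hl : ∀ i x, f.comp (LinearMap.inl K V V) (T i x) = S i (f.comp (LinearMap.inl K V V) x) :=
      fun i x => by simpa using h i (x, 0)
    have hr : ∀ i x, f.comp (LinearMap.inr K V V) (T i x) = S i (f.comp (LinearMap.inr K V V) x) :=
      fun i x => by simpa using h i (0, x)
    have key : ∀ (g : V →ₗ[K] W), (∀ i x, g (T i x) = S i (g x)) →
        A.map g ≤ ⨆ c ∈ C, part S c := fun g hg => by
      refine (Submodule.map_mono hA).trans ?_
      rw [Submodule.map_iSup]
      refine iSup_le fun c => ?_
      rw [Submodule.map_iSup]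
      refine iSup_le fun hc => ?_
      rintro _ ⟨x, hx, rfl⟩
      exact le_iSup₂ (f := fun c (_ : c ∈ C) => part S c) c hc (map_mem_part g hg hx)
    rintro _ ⟨⟨⟨x, hx⟩, ⟨y, hy⟩⟩, rfl⟩
    show f (x, y) ∈ _
    rw [show f (x, y) = f.comp (LinearMap.inl K V V) x + f.comp (LinearMap.inr K V V) y by
      simp [← map_add]]
    exact add_mem (key _ hl ⟨x, hx, rfl⟩) (key _ hr ⟨y, hy, rfl⟩)

end PairImage

end Fermat.Agent.TwoAdic.Cohom
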