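import Fermat.Agent.TwoAdic.Cohom.Defs
import Mathlib.Algebra.Field.ZMod
import Mathlib.Topology.Compactification.OnePoint.ProjectiveLine

/-!
# LT2 P4b: Shapiro's lemma from `Γ₀(M)` to `Γ₀(M q)`, and trivial coefficients

For a prime `q ∣ D` with `q ∤ M`, functions on `ℙ¹(𝔽_q)` with values in `ρ` give the cohomology
of `Γ₀(M q)` with values in `ρ`, compatibly with the Hecke operators at primes prime to `D`.
-/

set_option autoImplicit false

noncomputable section

open CongruenceSubgroup Matrix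
open Fermat.Agent.Periods
open scoped MatrixGroups OnePoint

namespace Fermat.Agent.TwoAdic.Cohom

variable {D : ℕ} {k : Type*} [CommRing k] {A : Type*} [AddCommGroup A] [Module k A]

/-- Reduction `GL₂(ℤ/D) → GL₂(ℤ/q)`. -/
def redTo {q : ℕ} (hqD : q ∣ D) : GL (Fin 2) (ZMod D) →* GL (Fin 2) (ZMod q) :=
  Matrix.GeneralLinearGroup.map (ZMod.castHom hqD (ZMod q))

theorem coe_redTo {q : ℕ} (hqD : q ∣ D) (g : GL (Fin 2) (ZMod D)) (i j : Fin 2) :
    redTo hqD g i j = ZMod.castHom hqD (ZMod q) (g i j) := rfl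

section FunRep

variable (q : ℕ) [Fact q.Prime] (hqD : q ∣ D) (ρ : Representation k (GL (Fin 2) (ZMod D)) A)

/-- Functions on `ℙ¹(𝔽_q)` with values in `ρ`. -/
def funRep : Representation k (GL (Fin 2) (ZMod D)) (OnePoint (ZMod q) → A) where
  toFun g :=
    { toFun := fun F x => ρ g (F ((redTo hqD g)⁻¹ • x))
      map_add' := fun F G => funext fun x => map_add (ρ g) _ _
      map_smul' := fun c F => funext fun x => map_smul (ρ g) c _ }
  map_one' := LinearMap.ext fun F => funext fun x => by simp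
  map_mul' g h := LinearMap.ext fun F => funext fun x => by
    simp [mul_smul]

theorem funRep_apply (g : GL (Fin 2) (ZMod D)) (F : OnePoint (ZMod q) → A) (x : OnePoint (ZMod q)) :
    funRep q hqD ρ g F x = ρ g (F ((redTo hqD g)⁻¹ • x)) := rfl

theorem neg_one_smul_onePoint (x : OnePoint (ZMod q)) :
    (-1 : GL (Fin 2) (ZMod q)) • x = x := by
  cases x with
  | infty => rw [OnePoint.smul_infty_eq_self_iff]; simp
  | coe c => simp [OnePoint.smul_some_eq_ite, neg_div_neg_eq]

theorem redTo_neg_one : redTo hqD (-1 : GL (Fin 2) (ZMod D)) = -1 := by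
  refine Units.ext (Matrix.ext fun i j => ?_)
  show ZMod.castHom hqD (ZMod q) _ = _
  fin_cases i <;> fin_cases j <;> simp [map_neg, -ZMod.castHom_apply]

theorem funRep_neg_one (hρ : ρ (-1) = 1) : funRep q hqD ρ (-1) = 1 := by
  refine LinearMap.ext fun F => funext fun x => ?_
  rw [funRep_apply, hρ, Module.End.one_apply, redTo_neg_one, Module.End.one_apply]
  congr 1
  rw [inv_smul_eq_iff, neg_one_smul_onePoint]

end FunRep

section Shapiro

variable {M q : ℕ} [Fact q.Prime] (hqD : q ∣ D) (hqM : ¬ q ∣ M)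

/-- The inclusion `Γ₀(M q) → Γ₀(M)`. -/
def incl (M q : ℕ) : Gamma0 (M * q) →* Gamma0 M :=
  Subgroup.inclusion fun γ hγ => by
    rw [Gamma0_mem, ZMod.intCast_zmod_eq_zero_iff_dvd] at hγ ⊢
    exact (Int.natCast_dvd_natCast.mpr (dvd_mul_right M q)).trans hγ

omit [Fact q.Prime] in
theorem gammaMat_incl (γ : Gamma0 (M * q)) : gammaMat (incl M q γ) = gammaMat γ := rfl

omit [Fact q.Prime] in
theorem redHom_incl (γ : Gamma0 (M * q)) :
    redHom D _ (incl M q γ) = redHom D _ γ := rfl

omit [Fact q.Prime] in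
theorem incl_negOne : incl M q (negOne (M * q)) = negOne M := rfl

/-- The action of `Γ₀(M)` on `ℙ¹(𝔽_q)`. -/
def act (γ : Gamma0 M) : GL (Fin 2) (ZMod q) := redTo hqD (redHom D _ γ)

theorem act_mul (γ δ : Gamma0 M) : act hqD (γ * δ) = act hqD γ * act hqD δ := by
  simp [act]

theorem act_one : act hqD (1 : Gamma0 M) = 1 := by simp [act]

theorem act_inv (γ : Gamma0 M) : act hqD γ⁻¹ = (act hqD γ)⁻¹ := by simp [act]

theorem act_apply (γ : Gamma0 M) (i j : Fin 2) :
    act hqD γ i j = (gammaMat γ i j : ZMod q) := by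
  have h : ((redHom D _ γ : GL (Fin 2) (ZMod D)) : Matrix (Fin 2) (Fin 2) (ZMod D)) i j =
      (gammaMat γ i j : ZMod D) := by
    show (red D (gammaMat γ) : Matrix (Fin 2) (Fin 2) (ZMod D)) i j = _
    rw [coe_red (isUnit_det_gammaMat γ)]
    rfl
  rw [act, coe_redTo, h, map_intCast]

include hqM in
theorem act_smul_infty_iff (γ : Gamma0 M) :
    act hqD γ • (∞ : OnePoint (ZMod q)) = ∞ ↔ ∃ δ : Gamma0 (M * q), incl M q δ = γ := by
  rw [OnePoint.smul_infty_eq_self_iff, act_apply, ZMod.intCast_zmod_eq_zero_iff_dvd]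
  constructor
  · intro h
    refine ⟨⟨γ.1, ?_⟩, Subtype.ext rfl⟩
    rw [Gamma0_mem, ZMod.intCast_zmod_eq_zero_iff_dvd, Nat.cast_mul]
    refine IsCoprime.mul_dvd ?_ ((ZMod.intCast_zmod_eq_zero_iff_dvd _ _).mp (Gamma0_mem.mp γ.2)) h
    exact Nat.isCoprime_iff_coprime.mpr ((Fact.out : q.Prime).coprime_iff_not_dvd.mpr hqM).symm
  · rintro ⟨δ, rfl⟩
    exact (Int.natCast_dvd_natCast.mpr (dvd_mul_left q M)).trans
      ((ZMod.intCast_zmod_eq_zero_iff_dvd _ _).mp (Gamma0_mem.mp δ.2))

include hqM in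
theorem exists_act_smul_infty (x : OnePoint (ZMod q)) :
    ∃ γ : Gamma0 M, act hqD γ • (∞ : OnePoint (ZMod q)) = x := by
  have hq : q.Prime := Fact.out
  cases x with
  | infty => exact ⟨1, by rw [act_one, one_smul]⟩
  | coe t =>
    -- `(a b; M d)` with `a ≡ t M (mod q)` and `a` prime to `M`
    obtain ⟨u, v, huv⟩ := Nat.isCoprime_iff_coprime.mpr (hq.coprime_iff_not_dvd.mpr hqM)
    set a : ℤ := u * q + (t.val : ℤ) * M * (v * M) with ha
    obtain ⟨y, z, hyz⟩ : IsCoprime a (M : ℤ) :=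
      ⟨1, v - (t.val : ℤ) * (v * M), by rw [ha]; linear_combination huv⟩
    obtain ⟨γ, hγ⟩ := exists_gamma0_of_entries (N := M) (a := a) (b := -z) (c := (M : ℤ)) (d := y)
      (by linear_combination hyz) dvd_rfl
    refine ⟨γ, ?_⟩
    have hM0 : (M : ZMod q) ≠ 0 := fun h => hqM ((ZMod.natCast_eq_zero_iff _ _).mp h)
    have h10 : act hqD γ 1 0 = (M : ZMod q) := by rw [act_apply, hγ]; simp
    have h00 : act hqD γ 0 0 = t * (M : ZMod q) := by
      rw [act_apply, hγ]
      have hq0 : (q : ZMod q) = 0 := ZMod.natCast_self q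
      have h1 : (v : ZMod q) * M = 1 := by
        have := congrArg (fun e : ℤ => (e : ZMod q)) huv
        simpa [hq0] using this
      simp [ha, ZMod.natCast_val, ZMod.cast_id]
      linear_combination (t * M) * h1
    rw [OnePoint.smul_infty_eq_ite, h10, if_neg hM0, h00, mul_div_cancel_right₀ _ hM0]

open scoped Classical in
/-- Coset representatives indexed by `ℙ¹(𝔽_q)`. -/
def rep (x : OnePoint (ZMod q)) : Gamma0 M :=
  if x = ∞ then 1 else (exists_act_smul_infty hqD hqM x).choose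

theorem rep_infty : rep hqD hqM (∞ : OnePoint (ZMod q)) = 1 := by simp [rep]

theorem act_rep (x : OnePoint (ZMod q)) : act hqD (rep hqD hqM x) • (∞ : OnePoint (ZMod q)) = x := by
  unfold rep
  split_ifs with h
  · rw [act_one, one_smul, h]
  · exact (exists_act_smul_infty hqD hqM x).choose_spec

theorem exists_schreier (γ : Gamma0 M) (y : OnePoint (ZMod q)) :
    ∃ δ : Gamma0 (M * q), incl M q δ =
      (rep hqD hqM y)⁻¹ * γ * rep hqD hqM ((act hqD γ)⁻¹ • y) := by
  refine (act_smul_infty_iff hqD hqM _).mp ?_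
  rw [act_mul, act_mul, mul_smul, mul_smul, act_rep, smul_inv_smul, act_inv, inv_smul_eq_iff,
    act_rep]

/-- The Schreier element in `Γ₀(M q)`. -/
def schreier (γ : Gamma0 M) (y : OnePoint (ZMod q)) : Gamma0 (M * q) :=
  (exists_schreier hqD hqM γ y).choose

theorem incl_schreier (γ : Gamma0 M) (y : OnePoint (ZMod q)) :
    incl M q (schreier hqD hqM γ y) =
      (rep hqD hqM y)⁻¹ * γ * rep hqD hqM ((act hqD γ)⁻¹ • y) :=
  (exists_schreier hqD hqM γ y).choose_spec

omit [Fact q.Prime] in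
theorem incl_injective : Function.Injective (incl M q) := Subgroup.inclusion_injective _

variable (ρ : Representation k (GL (Fin 2) (ZMod D)) A)

include hqM in
theorem redTo_redHom_smul_infty (γ : Gamma0 (M * q)) :
    (redTo hqD (redHom D _ γ))⁻¹ • (∞ : OnePoint (ZMod q)) = ∞ := by
  rw [inv_smul_eq_iff]
  exact ((act_smul_infty_iff hqD hqM (incl M q γ)).mpr ⟨γ, rfl⟩).symm

/-- Evaluation at `∞` on cocycles. -/
def toLevel : cocycles M (funRep q hqD ρ) →ₗ[k] cocycles (M * q) ρ :=
  LinearMap.codRestrict _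
    (LinearMap.pi fun γ => (LinearMap.proj (∞ : OnePoint (ZMod q))).comp
      ((LinearMap.proj (incl M q γ)).comp (cocycles M (funRep q hqD ρ)).subtype)) fun f =>
    ⟨fun γ δ => by
      show f.1 (incl M q (γ * δ)) (∞ : OnePoint (ZMod q)) = _
      rw [map_mul, f.2.1, Pi.add_apply, funRep_apply, redHom_incl,
        redTo_redHom_smul_infty hqD hqM]
      rfl, by
      show f.1 (incl M q (negOne (M * q))) (∞ : OnePoint (ZMod q)) = 0
      rw [incl_negOne, f.2.2]; rfl⟩

theorem toLevel_apply (f : cocycles M (funRep q hqD ρ)) (γ : Gamma0 (M * q)) :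
    (toLevel hqD hqM ρ f : Gamma0 (M * q) → A) γ = f.1 (incl M q γ) (∞ : OnePoint (ZMod q)) := rfl

/-- Induction of cocycles. -/
def ofLevel : cocycles (M * q) ρ →ₗ[k] cocycles M (funRep q hqD ρ) :=
  LinearMap.codRestrict _
    (LinearMap.pi fun γ => LinearMap.pi fun y => (ρ (redHom D _ (rep hqD hqM y))).comp
      ((LinearMap.proj (schreier hqD hqM γ y)).comp (cocycles (M * q) ρ).subtype)) fun h => by
    refine ⟨fun γ δ => funext fun y => ?_, funext fun y => ?_⟩
    · show ρ (redHom D _ (rep hqD hqM y)) (h.1 (schreier hqD hqM (γ * δ) y)) =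
        ρ (redHom D _ (rep hqD hqM y)) (h.1 (schreier hqD hqM γ y)) +
          ρ (redHom D _ γ) (ρ (redHom D _ (rep hqD hqM ((act hqD γ)⁻¹ • y)))
            (h.1 (schreier hqD hqM δ ((act hqD γ)⁻¹ • y))))
      have hs : schreier hqD hqM (γ * δ) y =
          schreier hqD hqM γ y * schreier hqD hqM δ ((act hqD γ)⁻¹ • y) := by
        refine incl_injective (M := M) (q := q) ?_
        rw [map_mul, incl_schreier, incl_schreier, incl_schreier, act_mul, _root_.mul_inv_rev, mul_smul]
        group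
      rw [hs, h.2.1, map_add, ← Module.End.mul_apply (f := ρ (redHom D _ (rep hqD hqM y))),
        ← map_mul, ← Module.End.mul_apply (f := ρ (redHom D _ γ)), ← map_mul,
        ← redHom_incl (schreier hqD hqM γ y), incl_schreier, ← map_mul, ← map_mul]
      simp only [mul_assoc, mul_inv_cancel_left]
    · show ρ (redHom D _ (rep hqD hqM y)) (h.1 (schreier hqD hqM (negOne M) y)) = 0
      have hs : schreier hqD hqM (negOne M) y = negOne (M * q) := by
        refine incl_injective (M := M) (q := q) ?_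
        have hy : (act hqD (negOne M))⁻¹ • y = y := by
          rw [inv_smul_eq_iff, act, redHom_negOne, redTo_neg_one, neg_one_smul_onePoint]
        rw [incl_schreier, incl_negOne, hy, mul_assoc, negOne_mul_comm, inv_mul_cancel_left]
      rw [hs, h.2.2, map_zero]

theorem ofLevel_apply (h : cocycles (M * q) ρ) (γ : Gamma0 M) (y : OnePoint (ZMod q)) :
    (ofLevel hqD hqM ρ h : Gamma0 M → OnePoint (ZMod q) → A) γ y =
      ρ (redHom D _ (rep hqD hqM y)) ((h : Gamma0 (M * q) → A) (schreier hqD hqM γ y)) := rfl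

theorem toLevel_ofLevel (h : cocycles (M * q) ρ) :
    toLevel hqD hqM ρ (ofLevel hqD hqM ρ h) = h := by
  refine Subtype.ext (funext fun γ => ?_)
  rw [toLevel_apply, ofLevel_apply, rep_infty, map_one, map_one, Module.End.one_apply]
  refine congrArg h.1 (incl_injective (M := M) (q := q) ?_)
  rw [incl_schreier, rep_infty, show (act hqD (incl M q γ))⁻¹ • (∞ : OnePoint (ZMod q)) = ∞ from
    redTo_redHom_smul_infty hqD hqM γ, rep_infty, inv_one, one_mul, mul_one]

theorem mk_ofLevel_toLevel (f : cocycles M (funRep q hqD ρ)) :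
    (Submodule.Quotient.mk (ofLevel hqD hqM ρ (toLevel hqD hqM ρ f)) : H1 M (funRep q hqD ρ)) =
      Submodule.Quotient.mk f := by
  refine mk_eq_mk_iff.mpr
    ⟨fun y => (f : Gamma0 M → OnePoint (ZMod q) → A) (rep hqD hqM y) y, fun γ => funext fun y => ?_⟩
  set x := (act hqD γ)⁻¹ • y with hx
  set ry := rep hqD hqM y with hry
  set rx := rep hqD hqM x with hrx
  have hi : (redTo hqD (redHom D _ ry⁻¹))⁻¹ • (∞ : OnePoint (ZMod q)) = y := by
    rw [map_inv, map_inv, inv_inv]; exact act_rep hqD hqM y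
  have h1 : f.1 ry⁻¹ (∞ : OnePoint (ZMod q)) = -ρ (redHom D _ ry⁻¹) (f.1 ry y) := by
    have h := congrFun (cocycle_inv f ry) (∞ : OnePoint (ZMod q))
    rw [Pi.neg_apply, funRep_apply, hi] at h
    exact h
  have h2 : f.1 (γ * rx) y = f.1 γ y + ρ (redHom D _ γ) (f.1 rx x) := by
    rw [f.2.1, Pi.add_apply, funRep_apply]; rfl
  have h3 : f.1 (ry⁻¹ * γ * rx) (∞ : OnePoint (ZMod q)) =
      ρ (redHom D _ ry⁻¹) (f.1 γ y + ρ (redHom D _ γ) (f.1 rx x) - f.1 ry y) := by
    rw [mul_assoc, f.2.1, Pi.add_apply, funRep_apply, hi, h1, h2, map_sub]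
    abel
  rw [ofLevel_apply, toLevel_apply, incl_schreier, ← hx, ← hry, ← hrx, h3,
    ← Module.End.mul_apply, ← map_mul, ← map_mul, mul_inv_cancel, map_one, map_one,
    Module.End.one_apply, Pi.add_apply, Pi.sub_apply, funRep_apply]
  show _ = f.1 γ y + (ρ (redHom D _ γ) (f.1 rx x) - f.1 ry y)
  abel

theorem toLevel_mem_coboundaries {f : cocycles M (funRep q hqD ρ)}
    (hf : f ∈ coboundaries M (funRep q hqD ρ)) :
    toLevel hqD hqM ρ f ∈ coboundaries (M * q) ρ := by
  obtain ⟨F, hF⟩ := hf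
  refine ⟨F (∞ : OnePoint (ZMod q)), funext fun γ => ?_⟩
  have h := congrFun (congrFun hF (incl M q γ)) (∞ : OnePoint (ZMod q))
  rw [cobound_apply, Pi.sub_apply, funRep_apply, redHom_incl,
    redTo_redHom_smul_infty hqD hqM] at h
  exact h

theorem ofLevel_mem_coboundaries {h : cocycles (M * q) ρ}
    (hh : h ∈ coboundaries (M * q) ρ) :
    ofLevel hqD hqM ρ h ∈ coboundaries M (funRep q hqD ρ) := by
  obtain ⟨b, hb⟩ := hh
  refine ⟨fun x => ρ (redHom D _ (rep hqD hqM x)) b, funext fun γ => funext fun y => ?_⟩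
  show _ = ρ (redHom D _ (rep hqD hqM y)) (h.1 (schreier hqD hqM γ y))
  have hb' : h.1 (schreier hqD hqM γ y) =
      ρ (redHom D _ (schreier hqD hqM γ y)) b - b := (congrFun hb _).symm
  rw [hb', map_sub, ← redHom_incl, incl_schreier, ← Module.End.mul_apply, ← map_mul, ← map_mul,
    mul_assoc, mul_inv_cancel_left, map_mul, map_mul, Module.End.mul_apply]
  rfl

/-- Shapiro's isomorphism. -/
def shapiro : H1 M (funRep q hqD ρ) ≃ₗ[k] H1 (M * q) ρ :=
  LinearEquiv.ofLinearMap
    (Submodule.mapQ _ _ (toLevel hqD hqM ρ) fun _ hf => toLevel_mem_coboundaries hqD hqM ρ hf)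
    (Submodule.mapQ _ _ (ofLevel hqD hqM ρ) fun _ hf => ofLevel_mem_coboundaries hqD hqM ρ hf)
    (LinearMap.ext fun x => by
      obtain ⟨h, rfl⟩ := Submodule.Quotient.mk_surjective _ x
      rw [LinearMap.comp_apply, Submodule.mapQ_apply, Submodule.mapQ_apply, toLevel_ofLevel,
        LinearMap.id_apply])
    (LinearMap.ext fun x => by
      obtain ⟨f, rfl⟩ := Submodule.Quotient.mk_surjective _ x
      rw [LinearMap.comp_apply, Submodule.mapQ_apply, Submodule.mapQ_apply, mk_ofLevel_toLevel,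
        LinearMap.id_apply])

theorem shapiro_mk (f : cocycles M (funRep q hqD ρ)) :
    shapiro hqD hqM ρ (Submodule.Quotient.mk f) =
      Submodule.Quotient.mk (toLevel hqD hqM ρ f) := rfl

theorem redTo_heckeMat_smul_infty {l : ℕ} (hlD : l.Coprime D) (i : HeckeIdx M l) :
    redTo hqD (red D (heckeMat M l i)) • (∞ : OnePoint (ZMod q)) = ∞ := by
  rw [OnePoint.smul_infty_eq_self_iff, coe_redTo]
  rw [show (red D (heckeMat M l i) : Matrix (Fin 2) (Fin 2) (ZMod D)) 1 0 = 0 by
    rw [coe_red (isUnit_det_heckeMat hlD i)]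
    obtain ⟨_ | j, hi⟩ := i <;> simp [heckeMat], map_zero]

/-- The Shapiro isomorphism commutes with the Hecke operators prime to `D`. -/
theorem shapiro_heckeH1 {l : ℕ} (hl : l.Prime) (hlD : l.Coprime D)
    (x : H1 M (funRep q hqD ρ)) :
    shapiro hqD hqM ρ (heckeH1 (funRep q hqD ρ) hl hlD x) =
      heckeH1 ρ hl hlD (shapiro hqD hqM ρ x) := by
  obtain ⟨f, rfl⟩ := Submodule.Quotient.mk_surjective _ x
  show shapiro hqD hqM ρ ((heckeFamily M hl hlD).onH1 (funRep q hqD ρ) _) =
    (heckeFamily (M * q) hl hlD).onH1 ρ _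
  rw [Family.onH1_mk, shapiro_mk, shapiro_mk, Family.onH1_mk]
  congr 1
  refine Subtype.ext (funext fun γ => ?_)
  have hlq : ¬ l ∣ q := fun h => by
    have h' := Nat.dvd_gcd (dvd_refl l) (h.trans hqD)
    rw [hlD] at h'
    exact hl.not_dvd_one h'
  have hiff : l ∣ M * q ↔ l ∣ M :=
    ⟨fun h => (hl.dvd_mul.mp h).resolve_right hlq, fun h => h.mul_right q⟩
  let e : HeckeIdx (M * q) l ≃ HeckeIdx M l :=
    Equiv.subtypeEquivRight fun x => by rw [hiff]
  show ((heckeFamily M hl hlD).onFun (funRep q hqD ρ) f.1 (incl M q γ)) ∞ =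
    (heckeFamily (M * q) hl hlD).onFun ρ (fun δ => f.1 (incl M q δ) ∞) γ
  rw [Family.onFun_apply, Family.onFun_apply, Finset.sum_apply, ← Equiv.sum_comp e]
  refine Finset.sum_congr rfl fun i _ => ?_
  rw [funRep_apply, map_inv (redTo hqD), inv_inv]
  rw [show (heckeFamily M hl hlD).mat (e i) = heckeMat M l (e i) from rfl,
    redTo_heckeMat_smul_infty hqD hlD]
  rw [show (heckeFamily M hl hlD).elt (incl M q γ) (e i) = incl M q (transferElt hl γ i) from
    (transfer_eq hl (γ := incl M q γ) (i := e i) (j := e (transferIdx hl γ i))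
      (g := incl M q (transferElt hl γ i)) (transfer_spec hl γ i)).2]
  rfl

end Shapiro

section Trivial

variable (M : ℕ) (k) (A)

/-- Homomorphisms on `Γ₀(M)` killing `-1`. -/
def negOneHoms : Submodule k (Additive (Gamma0 M) →+ A) where
  carrier := {φ | φ (Additive.ofMul (negOne M)) = 0}
  zero_mem' := rfl
  add_mem' {φ ψ} h h' := by simp only [Set.mem_setOf_eq, AddMonoidHom.add_apply] at *; simp [h, h']
  smul_mem' c φ h := by simp only [Set.mem_setOf_eq, AddMonoidHom.smul_apply] at *; simp [h]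

variable {M k A}

/-- Normalised cocycles with trivial coefficients are homomorphisms. -/
def cocyclesTrivial :
    cocycles M (Representation.trivial k (GL (Fin 2) (ZMod D)) A) ≃ₗ[k] negOneHoms k A M where
  toFun f := ⟨AddMonoidHom.mk' (fun γ => f.1 (Additive.toMul γ)) fun γ δ => by
      show f.1 (Additive.toMul γ * Additive.toMul δ) = _
      rw [f.2.1]; rfl, f.2.2⟩
  map_add' f g := rfl
  map_smul' c f := rfl
  invFun φ := ⟨fun γ => φ.1 (Additive.ofMul γ), fun γ δ => by
      show φ.1 (Additive.ofMul (γ * δ)) = _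
      rw [ofMul_mul, map_add]; rfl, φ.2⟩
  left_inv f := rfl
  right_inv φ := rfl

theorem coboundaries_trivial :
    coboundaries M (Representation.trivial k (GL (Fin 2) (ZMod D)) A) = ⊥ := by
  refine eq_bot_iff.mpr fun f hf => ?_
  obtain ⟨a, ha⟩ := hf
  refine Subtype.ext (funext fun γ => ?_)
  have h : f.1 γ = cobound M (Representation.trivial k (GL (Fin 2) (ZMod D)) A) a γ :=
    congrFun ha.symm γ
  rw [h, cobound_apply]
  simp

/-- `H¹` with trivial coefficients is `Hom(Γ₀(M)/±1, A)`. -/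
def h1Trivial :
    H1 M (Representation.trivial k (GL (Fin 2) (ZMod D)) A) ≃ₗ[k] negOneHoms k A M :=
  (Submodule.quotEquivOfEqBot _ coboundaries_trivial).trans cocyclesTrivial

theorem h1Trivial_mk (f : cocycles M (Representation.trivial k (GL (Fin 2) (ZMod D)) A))
    (γ : Gamma0 M) :
    (h1Trivial (D := D) (k := k) (A := A) (M := M) (Submodule.Quotient.mk f)).1
      (Additive.ofMul γ) = f.1 γ := rfl

theorem heckeHom_mem_negOneHoms {l : ℕ} (hl : l.Prime) {φ : Additive (Gamma0 M) →+ A}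
    (hφ : φ ∈ negOneHoms k A M) : heckeHom k A hl φ ∈ negOneHoms k A M := by
  show heckeHom k A hl φ (Additive.ofMul (negOne M)) = 0
  rw [heckeHom_apply_of_eq hl φ (negOne M) id (fun _ => negOne M) fun i => by
    show heckeMat M l i * gammaMat (negOne M) = gammaMat (negOne M) * heckeMat M l i
    simp [gammaMat_negOne]]
  simp [show φ (Additive.ofMul (negOne M)) = 0 from hφ]

theorem h1Trivial_heckeH1 {l : ℕ} (hl : l.Prime) (hlD : l.Coprime D)
    (x : H1 M (Representation.trivial k (GL (Fin 2) (ZMod D)) A)) :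
    (h1Trivial (D := D) (k := k) (A := A) (M := M)
      (heckeH1 (Representation.trivial k (GL (Fin 2) (ZMod D)) A) hl hlD x)).1 =
      heckeHom k A hl (h1Trivial (D := D) (k := k) (A := A) (M := M) x).1 := by
  obtain ⟨f, rfl⟩ := Submodule.Quotient.mk_surjective _ x
  refine AddMonoidHom.ext fun γ' => ?_
  obtain ⟨γ, rfl⟩ := Additive.ofMul.surjective γ'
  show (h1Trivial (D := D) (k := k) (A := A) (M := M)
    ((heckeFamily M hl hlD).onH1 (Representation.trivial k (GL (Fin 2) (ZMod D)) A)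
      (Submodule.Quotient.mk f))).1 (Additive.ofMul γ) = _
  rw [Family.onH1_mk, h1Trivial_mk, heckeHom_apply]
  show (heckeFamily M hl hlD).onFun _ f.1 γ = _
  rw [Family.onFun_apply]
  rfl

end Trivial

end Fermat.Agent.TwoAdic.Cohom
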