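import Fermat.Agent.TwoAdic.Cohom.Exact
import Fermat.Agent.TwoAdic.Cohom.Shapiro
import Fermat.Agent.TwoAdic.Cuspidal.HeartPi

/-!
# LT2 P4b: the counting formula for the heart at several primes

For a representation `ρ` the sequences `0 → ker sum → Fun(ℙ¹(𝔽_q), ρ) → ρ → 0` and
`0 → ρ → ker sum → heart → 0` give `dim part(M, heart) + 2 dim part(M, ρ) = dim part(M q, ρ)`,
hence `dim part(M, heart_Q) = ∑_{A ⊆ Q} (-2)^{|Q ∖ A|} dim part(M ∏ A, k)`.
-/

set_option autoImplicit false

noncomputable section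

open CongruenceSubgroup
open Fermat.Agent.Periods
open Fermat.Agent.TwoAdic.Cuspidal
open scoped MatrixGroups OnePoint

namespace Fermat.Agent.TwoAdic.Cohom

section PartEquiv

variable {ι k : Type*} [Field k] {V W : Type*} [AddCommGroup V] [Module k V] [AddCommGroup W]
  [Module k W] {T : ι → Module.End k V} {S : ι → Module.End k W}

/-- An equivariant isomorphism preserves the dimension of the parts. -/
theorem finrank_part_eq (e : V ≃ₗ[k] W) (h : ∀ i x, e (T i x) = S i (e x)) (c : ι → k) :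
    Module.finrank k (part T c) = Module.finrank k (part S c) := by
  refine LinearEquiv.finrank_eq (e.ofSubmodules _ _ (le_antisymm ?_ fun y hy => ?_))
  · rintro _ ⟨x, hx, rfl⟩
    exact map_mem_part e.toLinearMap h hx
  · refine ⟨e.symm y, ?_, e.apply_symm_apply y⟩
    exact map_mem_part e.symm.toLinearMap (fun i z => e.injective (by simp [h])) hy

end PartEquiv

variable {D : ℕ} {k : Type*} [Field k]

/-- An isomorphism of representations preserves the dimension of the parts. -/
theorem finrank_heckePart_eq {M : ℕ} {S : Set ℕ} (hS : GoodPrimes D S) (c : ℕ → k) {A B : Type*}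
    [AddCommGroup A] [Module k A] [AddCommGroup B] [Module k B]
    {ρ : Representation k (GL (Fin 2) (ZMod D)) A} {σ : Representation k (GL (Fin 2) (ZMod D)) B}
    (e : A ≃ₗ[k] B) (he : ∀ g a, e (ρ g a) = σ g (e a)) :
    Module.finrank k (heckePart M hS c ρ) = Module.finrank k (heckePart M hS c σ) := by
  have he' : ∀ g b, e.symm (σ g b) = ρ g (e.symm b) := fun g b =>
    e.injective (by rw [e.apply_symm_apply, he, e.apply_symm_apply])
  refine finrank_part_eq (LinearEquiv.ofLinearMap (mapH1 e.toLinearMap he)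
    (mapH1 e.symm.toLinearMap he') ?_ ?_) (fun ℓ x => (heckeH1_mapH1 _ he _ _ x).symm) _
  · refine LinearMap.ext fun x => ?_
    obtain ⟨f, rfl⟩ := Submodule.Quotient.mk_surjective _ x
    rw [LinearMap.comp_apply, mapH1_mk, mapH1_mk]
    exact congrArg Submodule.Quotient.mk (Subtype.ext (funext fun γ => e.apply_symm_apply _))
  · refine LinearMap.ext fun x => ?_
    obtain ⟨f, rfl⟩ := Submodule.Quotient.mk_surjective _ x
    rw [LinearMap.comp_apply, mapH1_mk, mapH1_mk]
    exact congrArg Submodule.Quotient.mk (Subtype.ext (funext fun γ => e.symm_apply_apply _))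

/-- Levels with `Γ₀(M)/±1` torsion-free go up. -/
theorem IsTorsionFreeMod.mul {M : ℕ} (h : IsTorsionFreeMod M) (q : ℕ) :
    IsTorsionFreeMod (M * q) := fun γ => by
  rw [← gammaMat_incl (M := M) (q := q) γ]
  exact h _

theorem not_dvd_of_cast_eq_one {ℓ q : ℕ} (hℓ : ℓ.Prime) (hℓ1 : (ℓ : ZMod D) = 1) (hqD : q ∣ D)
    (hq : q.Prime) : ¬ ℓ ∣ q := by
  intro h
  obtain rfl := (Nat.prime_dvd_prime_iff_eq hℓ hq).mp h
  have := congrArg (ZMod.castHom hqD (ZMod ℓ)) hℓ1
  rw [map_natCast, ZMod.natCast_self, map_one] at this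
  have hF := Fact.mk hℓ
  exact zero_ne_one this

section One

variable {M q : ℕ} [Fact q.Prime] (hqD : q ∣ D) {ψ : AddChar (ZMod q) k} (hψ : ψ ≠ 1)
  (hcard : ((Fintype.card (ZMod q) + 1 : ℕ) : k) = 0)
  {A : Type*} [AddCommGroup A] [Module k A] (ρ : Representation k (GL (Fin 2) (ZMod D)) A)

/-- **The heart at `q` in cohomology.** -/
theorem finrank_heckePart_heartRep [NeZero M] [FiniteDimensional k A] (hqM : ¬ q ∣ M)
    (htf : IsTorsionFreeMod M) {S : Set ℕ} (hS : GoodPrimes D S) {c : ℕ → k} (hρ : ρ (-1) = 1)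
    {ℓ : ℕ} (hℓS : ℓ ∈ S) (hℓM : ¬ ℓ ∣ M) (hℓ1 : (ℓ : ZMod D) = 1) (hc : c ℓ ≠ (ℓ : k) + 1) :
    Module.finrank k (heckePart M hS c (heartRep (redTo hqD :) ρ hcard hψ)) +
        2 * Module.finrank k (heckePart M hS c ρ) =
      Module.finrank k (heckePart (M * q) hS c ρ) := by
  have h1 := finrank_heckePart_add (σ := p1Rep (redTo hqD :) ρ) (τ := ρ)
    (ρ := kerSumRep (redTo hqD :) ρ) htf hS (c := c) (kerSum (ZMod q) k A).subtype
    (subtype_kerSumRep (redTo hqD :) ρ) Subtype.val_injective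
    (sumP1 (ZMod q) k A) (sumP1_p1Rep (redTo hqD :) ρ) ker_sumP1_eq sumP1_surjective
    (funRep_neg_one q hqD ρ hρ) hℓS hℓM hℓ1 hc
  have h2 := finrank_heckePart_add (σ := kerSumRep (redTo hqD :) ρ)
    (τ := heartRep (redTo hqD :) ρ hcard hψ) (ρ := ρ) htf hS (c := c) (constMap A hcard)
    (constMap_rep (redTo hqD :) ρ hcard) (constMap_injective hcard)
    (heartMap A ψ) (heartMap_rep (redTo hqD :) ρ hcard hψ) (ker_heartMap hcard hψ)
    (heartMap_surjective hcard hψ)
    (LinearMap.ext fun F => Subtype.ext (LinearMap.congr_fun (funRep_neg_one q hqD ρ hρ) F.1))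
    hℓS hℓM hℓ1 hc
  have h3 : Module.finrank k (heckePart M hS c (p1Rep (redTo hqD :) ρ)) =
      Module.finrank k (heckePart (M * q) hS c ρ) :=
    finrank_part_eq (T := opsH1 hS (funRep q hqD ρ)) (shapiro hqD hqM ρ)
      (fun ℓ x => shapiro_heckeH1 hqD hqM ρ _ _ x) _
  omega

end One

theorem sum_powerset_step (g : ℕ → ℤ) {s : Finset ℕ} {p : ℕ} (hp : p ∉ s) (M : ℕ) :
    ∑ A ∈ (insert p s).powerset, (-2) ^ ((insert p s) \ A).card * g (M * A.prod id) =
      (∑ A ∈ s.powerset, (-2) ^ (s \ A).card * g (M * p * A.prod id)) -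
        2 * ∑ A ∈ s.powerset, (-2) ^ (s \ A).card * g (M * A.prod id) := by
  rw [Finset.sum_powerset_insert hp, sub_eq_add_neg, add_comm, Finset.mul_sum,
    ← Finset.sum_neg_distrib]
  congr 1 <;> refine Finset.sum_congr rfl fun A hA => ?_
  · have hpA : p ∉ A := fun h => hp (Finset.mem_powerset.mp hA h)
    rw [Finset.prod_insert hpA, id, ← mul_assoc, Finset.insert_sdiff_insert,
      Finset.sdiff_insert_of_notMem hp]
  · have hpA : p ∉ A := fun h => hp (Finset.mem_powerset.mp hA h)
    rw [Finset.insert_sdiff_of_notMem _ hpA, Finset.card_insert_of_notMem (by simp [hp]), pow_succ]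
    ring

/-- Scalars act trivially on the heart. -/
theorem heartPi_neg_one {ι : Type} [Fintype ι] [DecidableEq ι] {q : ι → ℕ}
    [∀ i, Fact (q i).Prime] (hD : ∀ i, q i ∣ D) {ψ : ∀ i, AddChar (ZMod (q i)) k}
    (hψ : ∀ i, ψ i ≠ 1) (hcard : ∀ i, ((Fintype.card (ZMod (q i)) + 1 : ℕ) : k) = 0) :
    heartPi (fun i => (redTo (hD i) :)) hψ hcard (-1) = 1 :=
  heartPi_eq_one_of_scalar _ hψ hcard fun i => by
    simp [coe_redTo, -ZMod.castHom_apply]

/-- **The counting formula for the heart.** -/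
theorem finrank_heckePart_heartPi {S : Set ℕ} (hS : GoodPrimes D S) {c : ℕ → k}
    {ℓ : ℕ} (hℓS : ℓ ∈ S) (hℓ1 : (ℓ : ZMod D) = 1) (hc : c ℓ ≠ (ℓ : k) + 1)
    {ι : Type} [Fintype ι] [DecidableEq ι] {q : ι → ℕ} [∀ i, Fact (q i).Prime]
    (hinj : Function.Injective q) (hD : ∀ i, q i ∣ D) {ψ : ∀ i, AddChar (ZMod (q i)) k}
    (hψ : ∀ i, ψ i ≠ 1) (hcard : ∀ i, ((Fintype.card (ZMod (q i)) + 1 : ℕ) : k) = 0)
    {M : ℕ} [NeZero M] (hqM : ∀ i, ¬ q i ∣ M) (htf : IsTorsionFreeMod M) (hℓM : ¬ ℓ ∣ M) :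
    (Module.finrank k (heckePart M hS c (heartPi (fun i => (redTo (hD i) :)) hψ hcard)) : ℤ) =
      ∑ A ∈ (Finset.univ.image q).powerset, (-2) ^ ((Finset.univ.image q) \ A).card *
        (Module.finrank k (heckePart (M * A.prod id) hS c
          (Representation.trivial k (GL (Fin 2) (ZMod D)) k)) : ℤ) := by
  induction hn : Fintype.card ι generalizing ι M with
  | zero =>
    have : IsEmpty ι := Fintype.card_eq_zero_iff.mp hn
    have e : Module.finrank k (heckePart M hS c (heartPi (fun i => (redTo (hD i) :)) hψ hcard)) =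
        Module.finrank k (heckePart M hS c (Representation.trivial k (GL (Fin 2) (ZMod D)) k)) :=
      finrank_heckePart_eq hS c (LinearEquiv.funUnique _ k k) fun g f => by
        rw [heartPi_of_isEmpty]; simp
    simp [e]
    exact congrArg (fun L => Module.finrank k
      (heckePart L hS c (Representation.trivial k (GL (Fin 2) (ZMod D)) k))) (mul_one M).symm
  | succ n ih =>
    obtain ⟨i₀⟩ : Nonempty ι := Fintype.card_pos_iff.mp (by omega)
    have hq : (q i₀).Prime := Fact.out
    have : NeZero (M * q i₀) := ⟨mul_ne_zero (NeZero.ne M) hq.ne_zero⟩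
    have hinj' : Function.Injective fun j : {j // j ≠ i₀} => q j :=
      hinj.comp Subtype.val_injective
    have himg : Finset.univ.image q =
        insert (q i₀) (Finset.univ.image fun j : {j // j ≠ i₀} => q j) := by
      ext x
      simp only [Finset.mem_image, Finset.mem_univ, true_and, Finset.mem_insert, Subtype.exists]
      exact ⟨fun ⟨i, hi⟩ => (eq_or_ne i i₀).imp (fun h => by rw [← hi, h]) fun h => ⟨i, h, hi⟩,
        fun h => h.elim (fun h => ⟨i₀, h.symm⟩) fun ⟨i, _, hi⟩ => ⟨i, hi⟩⟩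
    have h0 : q i₀ ∉ Finset.univ.image fun j : {j // j ≠ i₀} => q j := fun h => by
      obtain ⟨j, -, hj⟩ := Finset.mem_image.mp h
      exact j.2 (hinj hj)
    have hcard' : Fintype.card {j // j ≠ i₀} = n := by
      rw [Fintype.card_subtype_compl, Fintype.card_subtype_eq, hn]
      omega
    have hM' : ∀ j : {j // j ≠ i₀}, ¬ q j ∣ M * q i₀ := fun j h => by
      rcases (Fact.out : (q j).Prime).dvd_mul.mp h with h | h
      · exact hqM _ h
      · exact j.2 (hinj ((Nat.prime_dvd_prime_iff_eq Fact.out hq).mp h))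
    have hℓM' : ¬ ℓ ∣ M * q i₀ := fun h => by
      rcases (hS ℓ hℓS).1.dvd_mul.mp h with h | h
      · exact hℓM h
      · exact not_dvd_of_cast_eq_one (hS ℓ hℓS).1 hℓ1 (hD i₀) hq h
    have step := finrank_heckePart_heartRep (hD i₀) (hψ i₀) (hcard i₀)
      (heartPi (fun j : {j // j ≠ i₀} => (redTo (hD j) :)) (fun j => hψ j) (fun j => hcard j))
      (hqM i₀) htf hS (heartPi_neg_one (q := fun j : {j // j ≠ i₀} => q j) (fun j => hD j) (fun j => hψ j) (fun j => hcard j))
      hℓS hℓM hℓ1 hc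
    have e := finrank_heckePart_eq (M := M) hS c (heartSplit (F := fun i => ZMod (q i)) i₀ k)
      (heartSplit_rep (fun i => (redTo (hD i) :)) hψ hcard i₀)
    have step' : (Module.finrank k (heckePart M hS c
        (heartPi (fun i => (redTo (hD i) :)) hψ hcard)) : ℤ) =
        (Module.finrank k (heckePart (M * q i₀) hS c (heartPi
          (fun j : {j // j ≠ i₀} => (redTo (hD j) :)) (fun j => hψ j) (fun j => hcard j))) : ℤ) -
        2 * (Module.finrank k (heckePart M hS c (heartPi
          (fun j : {j // j ≠ i₀} => (redTo (hD j) :)) (fun j => hψ j) (fun j => hcard j))) : ℤ) := by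
      rw [e, ← step]
      push_cast
      ring
    rw [step', himg, sum_powerset_step (fun L => (Module.finrank k (heckePart L hS c
        (Representation.trivial k (GL (Fin 2) (ZMod D)) k)) : ℤ)) h0 M,
      ih hinj' (fun j => hD j) (fun j => hψ j) (fun j => hcard j) hM' (htf.mul _) hℓM' hcard',
      ih hinj' (fun j => hD j) (fun j => hψ j) (fun j => hcard j) (fun j => hqM j) htf hℓM hcard']

end Fermat.Agent.TwoAdic.Cohom
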