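import Fermat.Agent.TwoAdic.Cohom.Lift
import Mathlib.NumberTheory.LegendreSymbol.QuadraticReciprocity

/-!
# LT2 P4b: levels without elliptic points

If a prime `r ≡ 11 (mod 12)` divides `M`, then `Γ₀(M)/±1` is torsion-free.
-/

set_option autoImplicit false

noncomputable section

open CongruenceSubgroup
open Fermat.Agent.Periods
open scoped MatrixGroups

namespace Fermat.Agent.TwoAdic.Cohom

variable {M : ℕ}

theorem not_isSquare_neg_three {r : ℕ} [Fact r.Prime] (h : r % 3 = 2) (h2 : r ≠ 2) :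
    ¬ IsSquare (-3 : ZMod r) := by
  rintro ⟨s, hs⟩
  -- a square root of `-3` gives an element of order three
  have h20 : (2 : ZMod r) ≠ 0 := by
    intro h0
    have : ((2 : ℕ) : ZMod r) = 0 := by exact_mod_cast h0
    exact h2 ((Nat.prime_dvd_prime_iff_eq Fact.out Nat.prime_two).mp
      ((ZMod.natCast_eq_zero_iff 2 r).mp this))
  have h30 : (3 : ZMod r) ≠ 0 := by
    intro h0
    have : ((3 : ℕ) : ZMod r) = 0 := by exact_mod_cast h0
    have := (Nat.prime_dvd_prime_iff_eq Fact.out Nat.prime_three).mp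
      ((ZMod.natCast_eq_zero_iff 3 r).mp this)
    omega
  set w : ZMod r := (-1 + s) / 2 with hw
  have hw2 : w ^ 2 + w + 1 = 0 := by
    rw [hw]; field_simp; linear_combination -hs
  have hw1 : w ≠ 1 := fun e => h30 (by rw [e] at hw2; linear_combination hw2)
  have hw0 : w ≠ 0 := fun e => by rw [e] at hw2; simp at hw2
  have h3 : w ^ 3 = 1 := by linear_combination (w - 1) * hw2
  have hord : orderOf w = 3 := orderOf_eq_prime h3 hw1
  have hdvd := orderOf_dvd_of_pow_eq_one (ZMod.pow_card_sub_one_eq_one hw0)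
  rw [hord] at hdvd
  omega

/-- `Γ₀(M)/±1` is torsion-free when a prime `r ≡ 11 (mod 12)` divides `M`. -/
theorem isTorsionFreeMod_of_dvd {r : ℕ} (hr : r.Prime) (h12 : r % 12 = 11) (hrM : r ∣ M) :
    IsTorsionFreeMod M := by
  intro γ
  have : Fact r.Prime := ⟨hr⟩
  by_contra! hlt
  set A := gammaMat γ
  have hdet : A 0 0 * A 1 1 - A 0 1 * A 1 0 = 1 := by
    rw [← Matrix.det_fin_two]; exact γ.1.2
  have h10 : ((A 1 0 : ℤ) : ZMod r) = 0 := by
    rw [ZMod.intCast_zmod_eq_zero_iff_dvd]
    exact (Int.natCast_dvd_natCast.mpr hrM).trans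
      ((ZMod.intCast_zmod_eq_zero_iff_dvd _ _).mp (Gamma0_mem.mp γ.2))
  set t := A 0 0 + A 1 1 with ht
  rw [Matrix.trace_fin_two, ← ht] at hlt
  have hd : ((A 0 0 : ℤ) : ZMod r) * (A 1 1 : ℤ) = 1 := by
    have := congrArg (fun z : ℤ => (z : ZMod r)) hdet
    push_cast at this
    rw [h10, mul_zero, sub_zero] at this
    exact this
  have hsq : IsSquare (((t ^ 2 - 4 : ℤ)) : ZMod r) := ⟨(A 0 0 : ZMod r) - (A 1 1 : ZMod r), by
    rw [ht]; push_cast
    linear_combination 4 * hd⟩
  have ht1 : -2 < t := by nlinarith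
  have ht2 : t < 2 := by nlinarith
  have h4 : r % 4 = 3 := by omega
  have hne : ¬ IsSquare (-1 : ZMod r) := fun h => ZMod.exists_sq_eq_neg_one_iff.mp h h4
  have h20 : (2 : ZMod r) ≠ 0 := by
    intro h0
    have : ((2 : ℕ) : ZMod r) = 0 := by exact_mod_cast h0
    have := (Nat.prime_dvd_prime_iff_eq hr Nat.prime_two).mp
      ((ZMod.natCast_eq_zero_iff 2 r).mp this)
    omega
  interval_cases t
  · exact not_isSquare_neg_three (r := r) (by omega) (by omega) (by norm_num at hsq; exact hsq)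
  · obtain ⟨s, hs⟩ := hsq
    refine hne ⟨s / 2, ?_⟩
    push_cast at hs
    field_simp
    linear_combination hs
  · exact not_isSquare_neg_three (r := r) (by omega) (by omega) (by norm_num at hsq; exact hsq)

end Fermat.Agent.TwoAdic.Cohom
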