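import Fermat.Agent.Periods.Hecke
import Fermat.Agent.Periods.Group.Presentation
import Mathlib.RepresentationTheory.Basic
import Mathlib.LinearAlgebra.Matrix.GeneralLinearGroup.Defs

/-!
# LT2 P4b: `H¹(Γ₀(M), A)` with coefficients in a representation of `GL₂(ℤ/D)`

`Γ₀(M)` acts on `A` through reduction modulo `D`. Cocycles are normalised by `f (-1) = 0`
(the scalars act trivially). For a family `Mᵢ` of integral matrices of determinant prime to `D`,
permuted by right multiplication modulo `Γ₀(M)` on the left, `(T f) γ = ∑ᵢ M̄ᵢ⁻¹ f (gᵢ)`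
when `Mᵢ γ = gᵢ M_{σ i}`.
-/

set_option autoImplicit false

noncomputable section

open CongruenceSubgroup
open Fermat.Agent.Periods
open scoped MatrixGroups

namespace Fermat.Agent.TwoAdic.Cohom

/-- Reduction of an integral matrix in `GL₂(ℤ/D)`; the value `1` is taken if the determinant is
not prime to `D`. -/
def red (D : ℕ) (X : IntMat) : GL (Fin 2) (ZMod D) :=
  open scoped Classical in
  if h : IsUnit (X.map (Int.castRingHom (ZMod D))) then h.unit else 1

variable {D : ℕ}

theorem isUnit_map_iff {X : IntMat} :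
    IsUnit (X.map (Int.castRingHom (ZMod D))) ↔ IsUnit ((X.det : ℤ) : ZMod D) := by
  rw [Matrix.isUnit_iff_isUnit_det]
  exact Iff.of_eq (congrArg IsUnit ((RingHom.map_det (Int.castRingHom (ZMod D)) X).symm))

theorem coe_red {X : IntMat} (h : IsUnit ((X.det : ℤ) : ZMod D)) :
    (red D X : Matrix (Fin 2) (Fin 2) (ZMod D)) = X.map (Int.castRingHom (ZMod D)) := by
  rw [red, dif_pos (isUnit_map_iff.mpr h)]
  exact IsUnit.unit_spec _

theorem red_mul {X Y : IntMat} (hX : IsUnit ((X.det : ℤ) : ZMod D))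
    (hY : IsUnit ((Y.det : ℤ) : ZMod D)) : red D (X * Y) = red D X * red D Y := by
  refine Units.ext ?_
  rw [Units.val_mul, coe_red hX, coe_red hY,
    coe_red (by rw [Matrix.det_mul, Int.cast_mul]; exact hX.mul hY)]
  exact Matrix.map_mul

theorem red_one : red D 1 = 1 := by
  refine Units.ext ?_
  rw [coe_red (by simp), Matrix.map_one _ (map_zero _) (map_one _)]
  rfl

theorem isUnit_det_gammaMat {Γ : Subgroup SL(2, ℤ)} (γ : Γ) :
    IsUnit (((gammaMat γ).det : ℤ) : ZMod D) := by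
  rw [gammaMat_det]; simp

/-- Reduction on a subgroup of `SL₂(ℤ)`. -/
def redHom (D : ℕ) (Γ : Subgroup SL(2, ℤ)) : Γ →* GL (Fin 2) (ZMod D) where
  toFun γ := red D (gammaMat γ)
  map_one' := by rw [gammaMat_one, red_one]
  map_mul' γ δ := by rw [gammaMat_mul, red_mul (isUnit_det_gammaMat γ) (isUnit_det_gammaMat δ)]

/-- The element `-1` of `Γ₀(M)`. -/
def negOne (M : ℕ) : Gamma0 M :=
  ⟨-1, Gamma0_mem.mpr (by simp)⟩

theorem gammaMat_negOne (M : ℕ) : gammaMat (negOne M) = -1 := rfl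

theorem negOne_mul_comm {M : ℕ} (γ : Gamma0 M) : negOne M * γ = γ * negOne M := by
  apply gammaMat_injective
  simp [gammaMat_mul, gammaMat_negOne]

theorem redHom_negOne (D M : ℕ) : redHom D (Gamma0 M) (negOne M) = -1 := by
  refine Units.ext ?_
  show (red D (gammaMat (negOne M)) : Matrix (Fin 2) (Fin 2) (ZMod D)) = _
  rw [coe_red (isUnit_det_gammaMat _), gammaMat_negOne]
  ext i j
  fin_cases i <;> fin_cases j <;> simp

variable {k : Type*} [CommRing k] {A : Type*} [AddCommGroup A] [Module k A]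

section Cocycles

variable (M : ℕ) (ρ : Representation k (GL (Fin 2) (ZMod D)) A)

/-- The normalised cocycles of `Γ₀(M)` with values in `ρ`. -/
def cocycles : Submodule k (Gamma0 M → A) where
  carrier := {f | (∀ γ δ, f (γ * δ) = f γ + ρ (redHom D _ γ) (f δ)) ∧ f (negOne M) = 0}
  zero_mem' := ⟨fun γ δ => by simp, rfl⟩
  add_mem' {f g} hf hg := ⟨fun γ δ => by
    simp only [Pi.add_apply, hf.1 γ δ, hg.1 γ δ, map_add]; abel, by
    simp [hf.2, hg.2]⟩
  smul_mem' c f hf := ⟨fun γ δ => by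
    simp only [Pi.smul_apply, hf.1 γ δ, map_smul, smul_add], by simp [hf.2]⟩

/-- The coboundary `γ ↦ γ a - a`. -/
def cobound : A →ₗ[k] (Gamma0 M → A) :=
  LinearMap.pi fun γ => ρ (redHom D _ γ) - LinearMap.id

theorem cobound_apply (a : A) (γ : Gamma0 M) :
    cobound M ρ a γ = ρ (redHom D _ γ) a - a := rfl

theorem cobound_mem (hρ : ρ (-1) = 1) (a : A) : cobound M ρ a ∈ cocycles M ρ := by
  refine ⟨fun γ δ => ?_, ?_⟩
  · simp only [cobound_apply, map_mul, Module.End.mul_apply, map_sub]; abel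
  · rw [cobound_apply, redHom_negOne, hρ, Module.End.one_apply, sub_self]

/-- The coboundaries, inside the cocycles. -/
def coboundaries : Submodule k (cocycles M ρ) :=
  (LinearMap.range (cobound M ρ)).comap (cocycles M ρ).subtype

/-- `H¹(Γ₀(M), ρ)` for normalised cocycles. -/
abbrev H1 : Type _ := cocycles M ρ ⧸ coboundaries M ρ

variable {M ρ}

theorem cocycle_one (f : cocycles M ρ) : (f : Gamma0 M → A) 1 = 0 := by
  have h := f.2.1 1 1
  rwa [mul_one, map_one, map_one, Module.End.one_apply, left_eq_add] at h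

theorem cocycle_inv (f : cocycles M ρ) (γ : Gamma0 M) :
    (f : Gamma0 M → A) γ⁻¹ = -ρ (redHom D _ γ⁻¹) ((f : Gamma0 M → A) γ) := by
  have h := f.2.1 γ⁻¹ γ
  rw [inv_mul_cancel, cocycle_one] at h
  exact eq_neg_of_add_eq_zero_left h.symm

theorem mk_eq_mk_iff {f g : cocycles M ρ} :
    (Submodule.Quotient.mk f : H1 M ρ) = Submodule.Quotient.mk g ↔
      ∃ a, ∀ γ, (f : Gamma0 M → A) γ = (g : Gamma0 M → A) γ + (ρ (redHom D _ γ) a - a) := by
  rw [Submodule.Quotient.eq]
  simp only [coboundaries, Submodule.mem_comap, LinearMap.mem_range, funext_iff, cobound_apply]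
  refine exists_congr fun a => forall_congr' fun γ => ?_
  show _ = (f : Gamma0 M → A) γ - (g : Gamma0 M → A) γ ↔ _
  rw [eq_sub_iff_add_eq', eq_comm]

section Functorial

variable {B : Type*} [AddCommGroup B] [Module k B] {τ : Representation k (GL (Fin 2) (ZMod D)) B}
  (u : A →ₗ[k] B) (hu : ∀ g a, u (ρ g a) = τ g (u a))

/-- Functoriality on cocycles. -/
def cocyclesMap : cocycles M ρ →ₗ[k] cocycles M τ :=
  LinearMap.codRestrict _ ((u.compLeft (Gamma0 M)).comp (cocycles M ρ).subtype) fun f =>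
    ⟨fun γ δ => by
      show u ((f : Gamma0 M → A) (γ * δ)) = _
      rw [f.2.1, map_add, hu]
      rfl, by
      show u ((f : Gamma0 M → A) (negOne M)) = 0
      rw [f.2.2, map_zero]⟩

theorem cocyclesMap_apply (f : cocycles M ρ) (γ : Gamma0 M) :
    (cocyclesMap u hu f : Gamma0 M → B) γ = u ((f : Gamma0 M → A) γ) := rfl

/-- Functoriality on `H¹`. -/
def mapH1 : H1 M ρ →ₗ[k] H1 M τ :=
  Submodule.mapQ _ _ (cocyclesMap u hu) fun f hf => by
    obtain ⟨a, ha⟩ := hf
    refine ⟨u a, funext fun γ => ?_⟩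
    show τ (redHom D _ γ) (u a) - u a = u ((f : Gamma0 M → A) γ)
    rw [← hu, ← map_sub]
    exact congrArg u (congrFun ha γ)

theorem mapH1_mk (f : cocycles M ρ) :
    mapH1 u hu (Submodule.Quotient.mk f) = Submodule.Quotient.mk (cocyclesMap u hu f) := rfl

end Functorial

end Cocycles

section Transfer

variable {M : ℕ} {ι : Type*} [Fintype ι]

/-- A family of matrices of determinant prime to `D` and nonzero, in distinct left cosets, stable
under right multiplication by `Γ₀(M)`. -/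
structure Family (M D : ℕ) (ι : Type*) where
  /-- The matrices. -/
  mat : ι → IntMat
  unit : ∀ i, IsUnit (((mat i).det : ℤ) : ZMod D)
  det_ne : ∀ i, (mat i).det ≠ 0
  separated : IsSeparated (Gamma0 M) mat
  /-- The permutation attached to an element. -/
  perm : Gamma0 M → Equiv.Perm ι
  /-- The left factors. -/
  elt : Gamma0 M → ι → Gamma0 M
  step : ∀ γ, CosetStep mat γ (perm γ) (elt γ)

namespace Family

variable (P : Family M D ι)

omit [Fintype ι] in
theorem eq_of_step {γ g : Gamma0 M} {i j : ι}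
    (h : P.mat i * gammaMat γ = gammaMat g * P.mat j) : j = P.perm γ i ∧ g = P.elt γ i := by
  have e := P.step γ i
  rw [h] at e
  have e' : P.mat j = gammaMat (g⁻¹ * P.elt γ i) * P.mat (P.perm γ i) := by
    rw [gammaMat_mul, Matrix.mul_assoc, ← e, ← Matrix.mul_assoc, ← gammaMat_mul, inv_mul_cancel,
      gammaMat_one, Matrix.one_mul]
  obtain rfl := P.separated _ _ _ e'
  exact ⟨rfl, gammaMat_injective (intMat_mul_right_cancel (P.det_ne _) e)⟩

omit [Fintype ι] in
theorem elt_mul (γ δ : Gamma0 M) (i : ι) :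
    P.elt (γ * δ) i = P.elt γ i * P.elt δ (P.perm γ i) ∧
      P.perm (γ * δ) i = P.perm δ (P.perm γ i) := by
  have h := P.eq_of_step ((P.step γ).comp (P.step δ) i)
  exact ⟨h.2.symm, h.1.symm⟩

omit [Fintype ι] in
theorem elt_negOne (i : ι) : P.elt (negOne M) i = negOne M := by
  refine (P.eq_of_step (g := negOne M) (j := i) ?_).2.symm
  simp [gammaMat_negOne]

omit [Fintype ι] in
theorem red_step (γ : Gamma0 M) (i : ι) :
    (red D (P.mat i))⁻¹ * redHom D _ (P.elt γ i) =
      redHom D _ γ * (red D (P.mat (P.perm γ i)))⁻¹ := by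
  have h := congrArg (red D) (P.step γ i)
  rw [red_mul (P.unit _) (isUnit_det_gammaMat _), red_mul (isUnit_det_gammaMat _) (P.unit _)] at h
  change red D (P.mat i) * redHom D _ γ = redHom D _ (P.elt γ i) * red D _ at h
  rw [inv_mul_eq_iff_eq_mul, ← mul_assoc, h, mul_inv_cancel_right]

variable (ρ : Representation k (GL (Fin 2) (ZMod D)) A)

/-- The sum of the inverse actions of the family. -/
def sumInv : Module.End k A := ∑ i, ρ (red D (P.mat i))⁻¹

/-- The transfer on cochains. -/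
def onFun : (Gamma0 M → A) →ₗ[k] (Gamma0 M → A) :=
  LinearMap.pi fun γ => ∑ i, (ρ (red D (P.mat i))⁻¹).comp (LinearMap.proj (P.elt γ i))

theorem onFun_apply (f : Gamma0 M → A) (γ : Gamma0 M) :
    P.onFun ρ f γ = ∑ i, ρ (red D (P.mat i))⁻¹ (f (P.elt γ i)) := by
  simp [onFun]

theorem onFun_mem {f : Gamma0 M → A} (hf : f ∈ cocycles M ρ) : P.onFun ρ f ∈ cocycles M ρ := by
  refine ⟨fun γ δ => ?_, ?_⟩
  · simp only [onFun_apply, (P.elt_mul γ δ _).1, hf.1, map_add, Finset.sum_add_distrib,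
      map_sum]
    congr 1
    rw [← Equiv.sum_comp (P.perm γ) (fun i => ρ (redHom D _ γ)
      (ρ (red D (P.mat i))⁻¹ (f (P.elt δ i))))]
    refine Finset.sum_congr rfl fun i _ => ?_
    rw [← Module.End.mul_apply, ← map_mul, P.red_step, map_mul, Module.End.mul_apply]
  · simp [onFun_apply, P.elt_negOne, hf.2]

theorem onFun_cobound (a : A) : P.onFun ρ (cobound M ρ a) = cobound M ρ (P.sumInv ρ a) := by
  funext γ
  simp only [onFun_apply, cobound_apply, map_sub, Finset.sum_sub_distrib, sumInv,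
    LinearMap.coe_sum, Finset.sum_apply, map_sum]
  congr 1
  rw [← Equiv.sum_comp (P.perm γ) (fun i => ρ (redHom D _ γ) (ρ (red D (P.mat i))⁻¹ a))]
  refine Finset.sum_congr rfl fun i _ => ?_
  rw [← Module.End.mul_apply, ← map_mul, P.red_step, map_mul, Module.End.mul_apply]

/-- The transfer on cocycles. -/
def onCocycles : Module.End k (cocycles M ρ) :=
  (P.onFun ρ).restrict fun _ hf => P.onFun_mem ρ hf

/-- The transfer on `H¹`. -/
def onH1 : Module.End k (H1 M ρ) :=
  Submodule.mapQ _ _ (P.onCocycles ρ) fun f hf => by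
    obtain ⟨a, ha⟩ := hf
    exact ⟨P.sumInv ρ a, by rw [← P.onFun_cobound]; exact congrArg (P.onFun ρ) ha⟩

theorem onH1_mk (f : cocycles M ρ) :
    P.onH1 ρ (Submodule.Quotient.mk f) = Submodule.Quotient.mk (P.onCocycles ρ f) := rfl

/-- Families representing the same cosets give the same operator on `H¹`. -/
theorem onH1_eq {κ : Type*} [Fintype κ] (P' : Family M D κ) (e : ι ≃ κ) (δ : ι → Gamma0 M)
    (h : ∀ i, P.mat i = gammaMat (δ i) * P'.mat (e i)) : P.onH1 ρ = P'.onH1 ρ := by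
  refine Submodule.linearMap_qext _ (LinearMap.ext fun f => ?_)
  show (Submodule.Quotient.mk (P.onCocycles ρ f) : H1 M ρ) = Submodule.Quotient.mk (P'.onCocycles ρ f)
  obtain ⟨f, hf⟩ := f
  refine mk_eq_mk_iff.mpr ⟨-∑ i, ρ (red D (P.mat i))⁻¹ (f (δ i)), fun γ => ?_⟩
  show P.onFun ρ f γ = P'.onFun ρ f γ + _
  have hj : ∀ i, e (P.perm γ i) = P'.perm γ (e i) ∧
      P.elt γ i = δ i * P'.elt γ (e i) * (δ (P.perm γ i))⁻¹ := by
    intro i
    have hs := P'.step γ (e i)
    have key : P.mat i * gammaMat γ = gammaMat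
        (δ i * P'.elt γ (e i) * (δ (e.symm (P'.perm γ (e i))))⁻¹) *
          P.mat (e.symm (P'.perm γ (e i))) := by
      rw [h, Matrix.mul_assoc, hs, h (e.symm _), e.apply_symm_apply, ← Matrix.mul_assoc,
        ← Matrix.mul_assoc, ← gammaMat_mul, ← gammaMat_mul, inv_mul_cancel_right]
    obtain ⟨h1, h2⟩ := P.eq_of_step key
    rw [h1] at h2
    exact ⟨by rw [← h1, e.apply_symm_apply], h2.symm⟩
  have hδ : ∀ i, (red D (P.mat i))⁻¹ * redHom D _ (δ i) = (red D (P'.mat (e i)))⁻¹ := fun i => by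
    rw [h i, red_mul (isUnit_det_gammaMat _) (P'.unit _), mul_inv_rev, mul_assoc]
    exact (congrArg _ (inv_mul_cancel (redHom D _ (δ i)))).trans (mul_one _)
  have term : ∀ i, ρ (red D (P.mat i))⁻¹ (f (P.elt γ i)) =
      ρ (red D (P'.mat (e i)))⁻¹ (f (P'.elt γ (e i))) + ρ (red D (P.mat i))⁻¹ (f (δ i)) -
        ρ (redHom D _ γ) (ρ (red D (P.mat (P.perm γ i)))⁻¹ (f (δ (P.perm γ i)))) := by
    intro i
    set j := P.perm γ i
    have hinv : f (δ j)⁻¹ = -ρ (redHom D _ (δ j)⁻¹) (f (δ j)) := cocycle_inv ⟨f, hf⟩ (δ j)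
    have hj' : f (P.elt γ i) = f (δ i) + ρ (redHom D _ (δ i)) (f (P'.elt γ (e i))) -
        ρ (redHom D _ (P.elt γ i)) (f (δ j)) := by
      rw [(hj i).2, hf.1, hf.1, hinv]
      simp only [map_mul, Module.End.mul_apply, map_neg]
      abel
    rw [hj', map_sub, map_add, ← Module.End.mul_apply (f := ρ (red D (P.mat i))⁻¹), ← map_mul,
      hδ, ← Module.End.mul_apply (f := ρ (red D (P.mat i))⁻¹), ← map_mul, P.red_step, map_mul,
      Module.End.mul_apply]
    abel
  simp only [onFun_apply, term, Finset.sum_sub_distrib, Finset.sum_add_distrib, map_neg, map_sum]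
  rw [Equiv.sum_comp e (fun i => ρ (red D (P'.mat i))⁻¹ (f (P'.elt γ i))),
    Equiv.sum_comp (P.perm γ) (fun i => ρ (redHom D _ γ) (ρ (red D (P.mat i))⁻¹ (f (δ i))))]
  abel

variable {ρ}

theorem onH1_mapH1 {B : Type*} [AddCommGroup B] [Module k B]
    {τ : Representation k (GL (Fin 2) (ZMod D)) B} (u : A →ₗ[k] B)
    (hu : ∀ g a, u (ρ g a) = τ g (u a)) (x : H1 M ρ) :
    P.onH1 τ (mapH1 u hu x) = mapH1 u hu (P.onH1 ρ x) := by
  obtain ⟨f, rfl⟩ := Submodule.Quotient.mk_surjective _ x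
  rw [onH1_mk, mapH1_mk, mapH1_mk, onH1_mk]
  congr 1
  refine Subtype.ext (funext fun γ => ?_)
  show P.onFun τ (fun δ => u ((f : Gamma0 M → A) δ)) γ = u (P.onFun ρ f γ)
  simp [onFun_apply, hu]

end Family

end Transfer

section Hecke

variable {M : ℕ}

theorem isUnit_det_heckeMat {p : ℕ} (hpD : p.Coprime D) (i : HeckeIdx M p) :
    IsUnit (((heckeMat M p i).det : ℤ) : ZMod D) := by
  rw [heckeMat_det, Int.cast_natCast]
  exact (ZMod.isUnit_iff_coprime p D).mpr hpD

/-- The Hecke family at a prime `p ∤ D`. -/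
def heckeFamily (M : ℕ) {p : ℕ} (hp : p.Prime) (hpD : p.Coprime D) :
    Family M D (HeckeIdx M p) where
  mat := heckeMat M p
  unit := isUnit_det_heckeMat hpD
  det_ne := heckeMat_det_ne_zero hp
  separated := heckeMat_separated hp
  perm := transferPerm hp
  elt := transferElt hp
  step := cosetStep_transfer hp

/-- The Hecke operator `T_p` (`U_p` for `p ∣ M`) on `H¹(Γ₀(M), ρ)`, for `p ∤ D`. -/
def heckeH1 (ρ : Representation k (GL (Fin 2) (ZMod D)) A) {p : ℕ} (hp : p.Prime)
    (hpD : p.Coprime D) : Module.End k (H1 M ρ) :=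
  (heckeFamily M hp hpD).onH1 ρ

theorem heckeH1_mapH1 {B : Type*} [AddCommGroup B] [Module k B]
    {ρ : Representation k (GL (Fin 2) (ZMod D)) A}
    {τ : Representation k (GL (Fin 2) (ZMod D)) B} (u : A →ₗ[k] B)
    (hu : ∀ g a, u (ρ g a) = τ g (u a)) {p : ℕ} (hp : p.Prime) (hpD : p.Coprime D) (x : H1 M ρ) :
    heckeH1 τ hp hpD (mapH1 u hu x) = mapH1 u hu (heckeH1 ρ hp hpD x) :=
  (heckeFamily M hp hpD).onH1_mapH1 u hu x

end Hecke

end Fermat.Agent.TwoAdic.Cohom
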