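import Mathlib.LinearAlgebra.Eigenspace.Zero
import Mathlib.LinearAlgebra.Dimension.Finite

/-!
# LT2 P4b: the part of a space cut out by an eigensystem of commuting operators

`part T c` is the intersection of the generalised `c i`-eigenspaces of the `T i`. On finite
dimensional spaces it is an exact functor.
-/

set_option autoImplicit false

noncomputable section

namespace Fermat.Agent.TwoAdic.Cohom

open Module

variable {ι k : Type*} [Field k] {U V W : Type*} [AddCommGroup U] [Module k U] [AddCommGroup V]
  [Module k V] [AddCommGroup W] [Module k W]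

/-- The simultaneous generalised eigenspace. -/
def part (T : ι → Module.End k V) (c : ι → k) : Submodule k V :=
  ⨅ i, Module.End.maxGenEigenspace (T i) (c i)

/-- The simultaneous generalised eigenspace for finitely many indices. -/
def partOn (T : ι → Module.End k V) (c : ι → k) (s : Finset ι) : Submodule k V :=
  ⨅ i ∈ s, Module.End.maxGenEigenspace (T i) (c i)

variable {T : ι → Module.End k V} {c : ι → k}

theorem mem_part {x : V} :
    x ∈ part T c ↔ ∀ i, ∃ n, ((T i - c i • (1 : Module.End k V)) ^ n) x = 0 := by
  simp only [part, Submodule.mem_iInf, Module.End.mem_maxGenEigenspace]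

theorem mem_partOn {x : V} {s : Finset ι} :
    x ∈ partOn T c s ↔ ∀ i ∈ s, ∃ n, ((T i - c i • (1 : Module.End k V)) ^ n) x = 0 := by
  simp only [partOn, Submodule.mem_iInf, Module.End.mem_maxGenEigenspace]

theorem map_pow_apply {S : Module.End k V} {S' : Module.End k W} (u : V →ₗ[k] W)
    (h : ∀ x, u (S x) = S' (u x)) (n : ℕ) (x : V) : u ((S ^ n) x) = (S' ^ n) (u x) := by
  induction n with
  | zero => rfl
  | succ n ih => rw [pow_succ', pow_succ', Module.End.mul_apply, Module.End.mul_apply, h, ih]

theorem map_sub_smul_apply {S : Module.End k V} {S' : Module.End k W} (u : V →ₗ[k] W)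
    (h : ∀ x, u (S x) = S' (u x)) (a : k) (x : V) :
    u ((S - a • (1 : Module.End k V)) x) = (S' - a • (1 : Module.End k W)) (u x) := by
  simp [h]

theorem map_mem_part {S : ι → Module.End k W} (u : V →ₗ[k] W)
    (h : ∀ i x, u (T i x) = S i (u x)) {x : V} (hx : x ∈ part T c) : u x ∈ part S c := by
  rw [mem_part] at hx ⊢
  intro i
  obtain ⟨n, hn⟩ := hx i
  exact ⟨n, by rw [← map_pow_apply u (map_sub_smul_apply u (h i) (c i)), hn, map_zero]⟩

/-- If a single operator acts on `x ∈ part` by a scalar different from the system, then `x = 0`. -/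
theorem eq_zero_of_apply_eq_smul {x : V} (hx : x ∈ part T c) {i : ι} {a : k}
    (hTx : T i x = a • x) (ha : a ≠ c i) : x = 0 := by
  obtain ⟨n, hn⟩ := mem_part.mp hx i
  have key : ∀ m, ((T i - c i • (1 : Module.End k V)) ^ m) x = (a - c i) ^ m • x := by
    intro m
    induction m with
    | zero => simp
    | succ m ih =>
      rw [pow_succ, Module.End.mul_apply, show (T i - c i • (1 : Module.End k V)) x = (a - c i) • x
        by simp [hTx, sub_smul], map_smul, ih, smul_smul, pow_succ']
  rw [key] at hn
  exact (smul_eq_zero.mp hn).resolve_left (pow_ne_zero _ (sub_ne_zero.mpr ha))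

/-- `range (f ^ n) = range (f ^ (2 n))` for `n ≥ dim`. -/
theorem exists_pow_two_mul [FiniteDimensional k V] (f : Module.End k V) {n : ℕ}
    (hn : finrank k V ≤ n) (x : V) : ∃ z, (f ^ (2 * n)) z = (f ^ n) x := by
  have hker : LinearMap.ker (f ^ (2 * n)) = LinearMap.ker (f ^ n) := by
    rw [Module.End.ker_pow_eq_ker_pow_finrank_of_le hn,
      Module.End.ker_pow_eq_ker_pow_finrank_of_le (by omega : finrank k V ≤ 2 * n)]
  have hle : LinearMap.range (f ^ (2 * n)) ≤ LinearMap.range (f ^ n) := by
    rintro _ ⟨z, rfl⟩
    exact ⟨(f ^ n) z, by rw [← Module.End.mul_apply, ← pow_add, two_mul]⟩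
  have h1 := LinearMap.finrank_range_add_finrank_ker (f ^ (2 * n))
  have h2 := LinearMap.finrank_range_add_finrank_ker (f ^ n)
  rw [hker] at h1
  have hmem : (f ^ n) x ∈ LinearMap.range (f ^ (2 * n)) := by
    rw [Submodule.eq_of_le_of_finrank_eq hle (by omega)]
    exact LinearMap.mem_range_self _ x
  exact hmem

theorem exists_mem_partOn_map_eq [FiniteDimensional k V] [FiniteDimensional k W]
    {S : ι → Module.End k W} (hT : ∀ i j, Commute (T i) (T j)) (u : V →ₗ[k] W)
    (h : ∀ i x, u (T i x) = S i (u x)) (s : Finset ι) {w : W} (hw : w ∈ part S c)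
    {v : V} (hv : u v = w) : ∃ v' ∈ partOn T c s, u v' = w := by
  classical
  induction s using Finset.induction_on with
  | empty => exact ⟨v, by simp [mem_partOn], hv⟩
  | @insert a s has ih =>
    obtain ⟨v', hv's, rfl⟩ := ih
    set N := T a - c a • (1 : Module.End k V) with hN
    set N' := S a - c a • (1 : Module.End k W) with hN'
    have hstab : ∀ x ∈ partOn T c s, N x ∈ partOn T c s := by
      intro x hx
      rw [mem_partOn] at hx ⊢
      intro i hi
      obtain ⟨m, hm⟩ := hx i hi
      refine ⟨m, ?_⟩
      have hc : Commute N ((T i - c i • (1 : Module.End k V)) ^ m) :=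
        (((hT a i).sub_right ((Commute.one_right _).smul_right _)).sub_left
          ((Commute.one_left _).smul_left _)).pow_right m
      rw [← Module.End.mul_apply, ← hc.eq, Module.End.mul_apply, hm, map_zero]
    set n := finrank k V + finrank k W with hn
    obtain ⟨⟨z, hz⟩, hzeq⟩ := exists_pow_two_mul (N.restrict hstab) (n := n)
      ((Submodule.finrank_le _).trans (Nat.le_add_right _ _)) ⟨v', hv's⟩
    have hpow : ∀ (m : ℕ) (x : partOn T c s),
        (((N.restrict hstab) ^ m) x : V) = (N ^ m) x := fun m x =>
      map_pow_apply (partOn T c s).subtype (fun _ => rfl) m x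
    have hzV : (N ^ (2 * n)) z = (N ^ n) v' := by
      have := congrArg Subtype.val hzeq
      rwa [hpow, hpow] at this
    refine ⟨v' - (N ^ n) z, mem_partOn.mpr fun i hi => ?_, ?_⟩
    · rcases Finset.mem_insert.mp hi with rfl | hi
      · refine ⟨n, ?_⟩
        rw [map_sub, ← Module.End.mul_apply, ← pow_add, ← two_mul, hzV, sub_self]
      · have hsub : v' - (N ^ n) z ∈ partOn T c s := by
          refine Submodule.sub_mem _ hv's ?_
          have := (((N.restrict hstab) ^ n) ⟨z, hz⟩).2
          rwa [hpow] at this
        exact mem_partOn.mp hsub i hi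
    · have hu : ∀ x, u (N x) = N' (u x) := map_sub_smul_apply u (h a) (c a)
      obtain ⟨m, hm⟩ := mem_part.mp hw a
      have hwn : (N' ^ n) (u v') = 0 := by
        have : u v' ∈ LinearMap.ker (N' ^ m) := hm
        have hle : LinearMap.ker (N' ^ m) ≤ LinearMap.ker (N' ^ n) := by
          rcases le_total m n with hmn | hmn
          · intro x hx
            rw [LinearMap.mem_ker] at hx ⊢
            rw [← Nat.sub_add_cancel hmn, pow_add, Module.End.mul_apply, hx, map_zero]
          · rw [Module.End.ker_pow_eq_ker_pow_finrank_of_le (f := N') (m := m) (by omega),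
              Module.End.ker_pow_eq_ker_pow_finrank_of_le (f := N') (m := n) (by omega)]
        exact hle this
      have huz : (N' ^ (2 * n)) (u z) = 0 := by
        rw [← map_pow_apply u hu, hzV, map_pow_apply u hu, hwn]
      have huz' : (N' ^ n) (u z) = 0 := by
        have hm2 : u z ∈ LinearMap.ker (N' ^ (2 * n)) := huz
        rwa [Module.End.ker_pow_eq_ker_pow_finrank_of_le (f := N') (m := 2 * n) (by omega),
          ← Module.End.ker_pow_eq_ker_pow_finrank_of_le (f := N') (m := n) (by omega)] at hm2
      rw [map_sub, map_pow_apply u hu, huz', sub_zero]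

theorem exists_partOn_eq_part [FiniteDimensional k V] (T : ι → Module.End k V) (c : ι → k) :
    ∃ s : Finset ι, partOn T c s = part T c := by
  classical
  have hne : ∃ d, ∃ s : Finset ι, finrank k (partOn T c s) = d := ⟨_, ∅, rfl⟩
  obtain ⟨s, hs⟩ := Nat.find_spec hne
  refine ⟨s, le_antisymm (fun x hx => mem_part.mpr fun i => ?_)
    (fun x hx => mem_partOn.mpr fun i _ => mem_part.mp hx i)⟩
  have hle : partOn T c (insert i s) ≤ partOn T c s := fun y hy =>
    mem_partOn.mpr fun j hj => mem_partOn.mp hy j (Finset.mem_insert_of_mem hj)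
  have heq := Submodule.eq_of_le_of_finrank_le hle
    (hs.le.trans (Nat.find_min' hne ⟨insert i s, rfl⟩))
  exact mem_partOn.mp (heq.symm ▸ hx) i (Finset.mem_insert_self i s)

/-- Surjections of finite-dimensional spaces with commuting operators stay surjective on parts. -/
theorem exists_mem_part_map_eq [FiniteDimensional k V] [FiniteDimensional k W]
    {S : ι → Module.End k W} (hT : ∀ i j, Commute (T i) (T j)) (u : V →ₗ[k] W)
    (h : ∀ i x, u (T i x) = S i (u x)) {w : W} (hw : w ∈ part S c) (hwu : w ∈ LinearMap.range u) :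
    ∃ v ∈ part T c, u v = w := by
  obtain ⟨s, hs⟩ := exists_partOn_eq_part T c
  obtain ⟨v, hv⟩ := hwu
  obtain ⟨v', hv', he⟩ := exists_mem_partOn_map_eq hT u h s hw hv
  exact ⟨v', hs ▸ hv', he⟩

/-- Additivity of the dimension of parts on a sequence which is exact on parts. -/
theorem finrank_part_of_exact [FiniteDimensional k U] [FiniteDimensional k V]
    [FiniteDimensional k W] {R : ι → Module.End k U} {S : ι → Module.End k W}
    (hR : ∀ i j, Commute (R i) (R j)) (hT : ∀ i j, Commute (T i) (T j))
    (u : U →ₗ[k] V) (hu : ∀ i x, u (R i x) = T i (u x))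
    (v : V →ₗ[k] W) (hv : ∀ i x, v (T i x) = S i (v x))
    (hexact : LinearMap.ker v = LinearMap.range u) (hsurj : Function.Surjective v)
    (hinj : ∀ x ∈ part R c, u x = 0 → x = 0) :
    finrank k (part T c) = finrank k (part R c) + finrank k (part S c) := by
  let v' : part T c →ₗ[k] part S c := v.restrict fun x hx => map_mem_part v hv hx
  let u' : part R c →ₗ[k] part T c := u.restrict fun x hx => map_mem_part u hu hx
  have hv' : Function.Surjective v' := fun ⟨w, hw⟩ => by
    obtain ⟨x, hx, he⟩ := exists_mem_part_map_eq hT v hv hw (hsurj w)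
    exact ⟨⟨x, hx⟩, Subtype.ext he⟩
  have hu' : Function.Injective u' := by
    rw [injective_iff_map_eq_zero]
    exact fun ⟨x, hx⟩ he => Subtype.ext (hinj x hx (congrArg Subtype.val he))
  have hker : LinearMap.ker v' = LinearMap.range u' := by
    refine le_antisymm ?_ ?_
    · rintro ⟨x, hx⟩ he
      have hxr : x ∈ LinearMap.range u := by
        rw [← hexact]; exact congrArg Subtype.val he
      obtain ⟨y, hy, hye⟩ := exists_mem_part_map_eq hR u hu hx hxr
      exact ⟨⟨y, hy⟩, Subtype.ext hye⟩
    · rintro _ ⟨⟨y, hy⟩, rfl⟩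
      refine Subtype.ext ?_
      show v (u y) = 0
      rw [← LinearMap.mem_ker, hexact]
      exact LinearMap.mem_range_self u y
  have h1 := LinearMap.finrank_range_add_finrank_ker v'
  rw [LinearMap.range_eq_top.mpr hv', finrank_top, hker, LinearMap.finrank_range_of_inj hu'] at h1
  omega

end Fermat.Agent.TwoAdic.Cohom
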