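import Fermat.Agent.TwoAdic.Cohom.Lift
import Fermat.Agent.TwoAdic.Cohom.Part
import Fermat.Agent.Periods.HeckeComm

/-!
# LT2 P4b: `A ↦ H¹(Γ₀(M), A)` restricted to a non-Eisenstein eigensystem is exact

If `Γ₀(M)/±1` is torsion-free and the system `c` has `c ℓ ≠ ℓ + 1` at some `ℓ ≡ 1 (mod D)`,
`ℓ ∤ M`, then `A ↦ heckePart M ρ S c` is exact on finite dimensional representations, so its
dimension is additive.
-/

set_option autoImplicit false

noncomputable section

open CongruenceSubgroup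
open Fermat.Agent.Periods
open scoped MatrixGroups

namespace Fermat.Agent.TwoAdic.Cohom

variable {D M : ℕ}

section Commute

variable {p q : ℕ}

/-- The family of products of Hecke representatives. -/
def prodFamily (M : ℕ) (hp : p.Prime) (hq : q.Prime) (hpq : p ≠ q) (hpD : p.Coprime D)
    (hqD : q.Coprime D) : Family M D (HeckeIdx M p × HeckeIdx M q) where
  mat := heckeProd M p q
  unit x := by
    rw [heckeProd, Matrix.det_mul, Int.cast_mul]
    exact (isUnit_det_heckeMat hqD _).mul (isUnit_det_heckeMat hpD _)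
  det_ne := heckeProd_det_ne_zero hp hq
  separated := heckeProd_separated hp hq hpq
  perm := prodPerm hp hq
  elt γ x := transferElt hq (transferElt hp γ x.1) x.2
  step := cosetStep_heckeProd hp hq

variable {k : Type*} [CommRing k] {A : Type*} [AddCommGroup A] [Module k A]
  (ρ : Representation k (GL (Fin 2) (ZMod D)) A)

theorem heckeH1_mul (hp : p.Prime) (hq : q.Prime) (hpq : p ≠ q) (hpD : p.Coprime D)
    (hqD : q.Coprime D) :
    heckeH1 (M := M) ρ hp hpD * heckeH1 ρ hq hqD = (prodFamily M hp hq hpq hpD hqD).onH1 ρ := by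
  refine Submodule.linearMap_qext _ (LinearMap.ext fun f => ?_)
  show (Submodule.Quotient.mk ((heckeFamily M hp hpD).onCocycles ρ
    ((heckeFamily M hq hqD).onCocycles ρ f)) : H1 M ρ) = Submodule.Quotient.mk _
  congr 1
  refine Subtype.ext (funext fun γ => ?_)
  show (heckeFamily M hp hpD).onFun ρ ((heckeFamily M hq hqD).onFun ρ f) γ =
    (prodFamily M hp hq hpq hpD hqD).onFun ρ f γ
  simp only [Family.onFun_apply, map_sum]
  rw [Fintype.sum_prod_type]
  refine Finset.sum_congr rfl fun i _ => Finset.sum_congr rfl fun l _ => ?_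
  rw [← Module.End.mul_apply, ← map_mul, ← mul_inv_rev,
    ← red_mul ((heckeFamily M hq hqD).unit l) ((heckeFamily M hp hpD).unit i)]
  rfl

/-- The Hecke operators commute. -/
theorem heckeH1_commute (hp : p.Prime) (hq : q.Prime) (hpD : p.Coprime D) (hqD : q.Coprime D) :
    Commute (heckeH1 (M := M) ρ hp hpD) (heckeH1 ρ hq hqD) := by
  rcases eq_or_ne p q with rfl | hpq
  · exact Commute.refl _
  rw [Commute, SemiconjBy, heckeH1_mul ρ hp hq hpq hpD hqD, heckeH1_mul ρ hq hp hpq.symm hqD hpD]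
  choose e δ hδ using heckeProd_swap (N := M) hp hq hpq
  have hbij : Function.Bijective e := by
    refine (Fintype.bijective_iff_injective_and_card e).2 ⟨fun x y hxy => ?_, ?_⟩
    · refine heckeProd_separated hp hq hpq x y (δ x * (δ y)⁻¹) ?_
      rw [hδ x, hδ y, ← Matrix.mul_assoc, ← gammaMat_mul, inv_mul_cancel_right, hxy]
    · simp [Fintype.card_prod, mul_comm]
  exact (prodFamily M hp hq hpq hpD hqD).onH1_eq ρ (prodFamily M hq hp hpq.symm hqD hpD)
    (Equiv.ofBijective e hbij) δ hδ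

end Commute

section Ops

variable {k : Type*} [CommRing k] {A : Type*} [AddCommGroup A] [Module k A]

/-- An index set of primes prime to `D`. -/
def GoodPrimes (D : ℕ) (S : Set ℕ) : Prop := ∀ ℓ ∈ S, ℓ.Prime ∧ ℓ.Coprime D

variable {S : Set ℕ}

/-- The Hecke operators indexed by `S`. -/
def opsH1 (hS : GoodPrimes D S) (ρ : Representation k (GL (Fin 2) (ZMod D)) A) :
    S → Module.End k (H1 M ρ) :=
  fun ℓ => heckeH1 ρ (hS ℓ ℓ.2).1 (hS ℓ ℓ.2).2

end Ops

section Part

variable {k : Type*} [Field k] {A B C : Type*} [AddCommGroup A] [Module k A]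
  [AddCommGroup B] [Module k B] [AddCommGroup C] [Module k C] {S : Set ℕ}

/-- The `c`-part of `H¹(Γ₀(M), ρ)` for the operators at the primes in `S`. -/
def heckePart (M : ℕ) (hS : GoodPrimes D S) (c : ℕ → k)
    (ρ : Representation k (GL (Fin 2) (ZMod D)) A) : Submodule k (H1 M ρ) :=
  part (opsH1 hS ρ) fun ℓ : S => c ℓ

theorem finiteDimensional_H1 [NeZero M] [FiniteDimensional k A]
    (ρ : Representation k (GL (Fin 2) (ZMod D)) A) : FiniteDimensional k (H1 M ρ) := by
  have : Fintype (SL(2, ℤ) ⧸ Gamma0 M) := Fintype.ofFinite _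
  have : FiniteDimensional k (cocycles M ρ) :=
    FiniteDimensional.of_injective cocValues cocValues_injective
  infer_instance

variable {ρ : Representation k (GL (Fin 2) (ZMod D)) A}
  {σ : Representation k (GL (Fin 2) (ZMod D)) B}
  {τ : Representation k (GL (Fin 2) (ZMod D)) C}

theorem red_heckeMat_inv_apply {ℓ : ℕ} (hℓ1 : (ℓ : ZMod D) = 1) (hℓD : ℓ.Coprime D) (y : C)
    (hy : ∀ γ : Gamma0 M, τ (redHom D _ γ) y = y) (i : HeckeIdx M ℓ) :
    τ (red D (heckeMat M ℓ i))⁻¹ y = y := by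
  have key : τ (red D (heckeMat M ℓ i)) y = y := by
    obtain ⟨_ | j, hi⟩ := i
    · have : red D (heckeMat M ℓ ⟨none, hi⟩) = 1 := by
        refine Units.ext ?_
        rw [coe_red (isUnit_det_heckeMat hℓD _)]
        ext a b
        fin_cases a <;> fin_cases b <;> simp [heckeMat, hℓ1]
      rw [this, map_one, Module.End.one_apply]
    · obtain ⟨g, hg⟩ := exists_gamma0_of_entries (N := M) (a := 1) (b := (j : ℕ)) (c := 0) (d := 1)
        (by ring) (dvd_zero _)
      have : red D (heckeMat M ℓ ⟨some j, hi⟩) = redHom D _ g := by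
        refine Units.ext ?_
        show _ = (red D (gammaMat g) : Matrix (Fin 2) (Fin 2) (ZMod D))
        rw [coe_red (isUnit_det_heckeMat hℓD _), coe_red (isUnit_det_gammaMat g), hg]
        ext a b
        fin_cases a <;> fin_cases b <;> simp [heckeMat, hℓ1]
      rw [this, hy]
  conv_lhs => rw [← key]
  rw [← Module.End.mul_apply, ← map_mul, inv_mul_cancel, map_one, Module.End.one_apply]

/-- The image of the connecting map is Eisenstein: a class of the `c`-part killed by an injective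
map is zero. -/
theorem eq_zero_of_mapH1_eq_zero (hS : GoodPrimes D S) {c : ℕ → k}
    (u : A →ₗ[k] B) (hu : ∀ g a, u (ρ g a) = σ g (u a)) (huinj : Function.Injective u)
    (v : B →ₗ[k] C) (hv : ∀ g b, v (σ g b) = τ g (v b)) (huv : LinearMap.ker v = LinearMap.range u)
    {ℓ : ℕ} (hℓS : ℓ ∈ S) (hℓM : ¬ ℓ ∣ M) (hℓ1 : (ℓ : ZMod D) = 1)
    (hc : c ℓ ≠ (ℓ : k) + 1) {x : H1 M ρ} (hx : x ∈ heckePart M hS c ρ)
    (hux : mapH1 u hu x = 0) : x = 0 := by
  obtain ⟨f, rfl⟩ := Submodule.Quotient.mk_surjective _ x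
  obtain ⟨b, hb⟩ : ∃ b, ∀ γ, u ((f : Gamma0 M → A) γ) = σ (redHom D _ γ) b - b := by
    rw [mapH1_mk, ← Submodule.Quotient.mk_zero (coboundaries M σ), mk_eq_mk_iff] at hux
    obtain ⟨b, hb⟩ := hux
    exact ⟨b, fun γ => by simpa [cocyclesMap_apply] using hb γ⟩
  obtain ⟨hℓ, hℓD⟩ := hS ℓ hℓS
  set P := heckeFamily M hℓ hℓD with hP
  have huu : ∀ a, v (u a) = 0 := fun a =>
    (LinearMap.mem_ker).mp (huv ▸ LinearMap.mem_range_self u a)
  have hinv : ∀ γ : Gamma0 M, τ (redHom D _ γ) (v b) = v b := fun γ => by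
    have := huu ((f : Gamma0 M → A) γ)
    rwa [hb, map_sub, hv, sub_eq_zero] at this
  have hsum : v (P.sumInv σ b) = ((ℓ : k) + 1) • v b := by
    rw [Family.sumInv, LinearMap.coe_sum, Finset.sum_apply, map_sum,
      Finset.sum_congr rfl fun i _ =>
        show v (σ (red D (P.mat i))⁻¹ b) = v b from
          (hv _ b).trans (red_heckeMat_inv_apply hℓ1 hℓD _ hinv i),
      Finset.sum_const, Finset.card_univ, Fintype.card_congr (Equiv.subtypeUnivEquiv
        (fun (_ : Option (Fin ℓ)) _ => hℓM)), Fintype.card_option, Fintype.card_fin]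
    rw [← Nat.cast_smul_eq_nsmul k, Nat.cast_add, Nat.cast_one]
  obtain ⟨a, ha⟩ : P.sumInv σ b - ((ℓ : k) + 1) • b ∈ LinearMap.range u := by
    rw [← huv, LinearMap.mem_ker, map_sub, hsum, map_smul, sub_self]
  have hT : heckeH1 ρ hℓ hℓD (Submodule.Quotient.mk f) =
      ((ℓ : k) + 1) • (Submodule.Quotient.mk f : H1 M ρ) := by
    rw [← Submodule.Quotient.mk_smul]
    refine mk_eq_mk_iff.mpr ⟨a, fun γ => huinj ?_⟩
    have h1 : u (P.onFun ρ f γ) = P.onFun σ (cobound M σ b) γ := by
      simp [Family.onFun_apply, hu, hb, cobound_apply]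
    show u (P.onFun ρ f γ) = u (((ℓ : k) + 1) • (f : Gamma0 M → A) γ + _)
    rw [h1, P.onFun_cobound, map_add, map_sub, hu, map_smul, hb, ha, cobound_apply]
    simp only [map_sub, map_smul, smul_sub]
    abel
  exact eq_zero_of_apply_eq_smul (T := opsH1 hS ρ) hx (i := ⟨ℓ, hℓS⟩) hT (Ne.symm hc)

/-- **Exactness**: the dimension of the `c`-part is additive. -/
theorem finrank_heckePart_add [NeZero M] [FiniteDimensional k A] [FiniteDimensional k B]
    [FiniteDimensional k C] (htf : IsTorsionFreeMod M) (hS : GoodPrimes D S) {c : ℕ → k}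
    (u : A →ₗ[k] B) (hu : ∀ g a, u (ρ g a) = σ g (u a)) (huinj : Function.Injective u)
    (v : B →ₗ[k] C) (hv : ∀ g b, v (σ g b) = τ g (v b)) (huv : LinearMap.ker v = LinearMap.range u)
    (hvs : Function.Surjective v) (hσ : σ (-1) = 1) {ℓ : ℕ} (hℓS : ℓ ∈ S) (hℓM : ¬ ℓ ∣ M)
    (hℓ1 : (ℓ : ZMod D) = 1) (hc : c ℓ ≠ (ℓ : k) + 1) :
    Module.finrank k (heckePart M hS c σ) =
      Module.finrank k (heckePart M hS c ρ) + Module.finrank k (heckePart M hS c τ) := by
  have := finiteDimensional_H1 (M := M) ρ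
  have := finiteDimensional_H1 (M := M) σ
  have := finiteDimensional_H1 (M := M) τ
  have hzero : ∀ x : H1 M ρ, mapH1 v hv (mapH1 u hu x) = 0 := by
    intro x
    obtain ⟨f, rfl⟩ := Submodule.Quotient.mk_surjective _ x
    rw [mapH1_mk, mapH1_mk, Submodule.Quotient.mk_eq_zero]
    refine ⟨0, funext fun γ => ?_⟩
    show cobound M τ 0 γ = v (u ((f : Gamma0 M → A) γ))
    rw [map_zero, LinearMap.mem_ker.mp (huv ▸ LinearMap.mem_range_self u _)]
    rfl
  refine finrank_part_of_exact (fun i j => heckeH1_commute ρ _ _ _ _)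
    (fun i j => heckeH1_commute σ _ _ _ _) (mapH1 u hu)
    (fun i x => (heckeH1_mapH1 u hu _ _ x).symm) (mapH1 v hv)
    (fun i x => (heckeH1_mapH1 v hv _ _ x).symm) ?_ ?_
    (fun x hx => eq_zero_of_mapH1_eq_zero hS u hu huinj v hv huv hℓS hℓM hℓ1 hc hx)
  · refine le_antisymm (fun x hx => ?_) ?_
    · obtain ⟨f, rfl⟩ := Submodule.Quotient.mk_surjective _ x
      rw [LinearMap.mem_ker, mapH1_mk, Submodule.Quotient.mk_eq_zero] at hx
      obtain ⟨d, hd⟩ := hx
      obtain ⟨b, rfl⟩ := hvs d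
      -- subtract the coboundary of `b`
      have hmem : ∀ γ, ∃ a, u a = (f : Gamma0 M → B) γ - (σ (redHom D _ γ) b - b) := fun γ => by
        have hγ : τ (redHom D _ γ) (v b) - v b = v ((f : Gamma0 M → B) γ) := congrFun hd γ
        exact (LinearMap.mem_range).mp (huv ▸ LinearMap.mem_ker.mpr (by
          rw [map_sub, map_sub, hv, hγ, sub_self]))
      choose g hg using hmem
      have hgm : g ∈ cocycles M ρ := by
        refine ⟨fun γ δ => huinj ?_, huinj ?_⟩
        · rw [map_add, hu, hg, hg, hg, f.2.1, map_mul, map_mul, Module.End.mul_apply]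
          simp only [map_sub]
          abel
        · rw [hg, f.2.2, redHom_negOne, hσ, map_zero, Module.End.one_apply, sub_self, sub_zero]
      refine ⟨Submodule.Quotient.mk ⟨g, hgm⟩, ?_⟩
      rw [mapH1_mk]
      refine mk_eq_mk_iff.mpr ⟨-b, fun γ => ?_⟩
      show u (g γ) = _
      rw [hg, map_neg]
      abel
    · rintro _ ⟨x, rfl⟩
      exact hzero x
  · intro y
    obtain ⟨h, rfl⟩ := Submodule.Quotient.mk_surjective _ y
    obtain ⟨f, rfl⟩ := cocyclesMap_surjective hσ htf v hv hvs h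
    exact ⟨Submodule.Quotient.mk f, rfl⟩

end Part

end Fermat.Agent.TwoAdic.Cohom
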