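import Fermat.Agent.TwoAdic.Cohom.Exact
import Mathlib.LinearAlgebra.FreeModule.PID
import Mathlib.RingTheory.Localization.FractionRing
import Mathlib.RingTheory.Localization.Integer

/-!
# LT2 P4b: the lifting inequality

For a lattice `Λ` in a `K`-representation with reduction `V̄`, a Hecke-stable subspace of
`H¹(Γ₀(M), Λ_K)` on which every operator has its eigenvalues congruent to the system `c` has
dimension at most that of the `c`-part of `H¹(Γ₀(M), V̄)`.
-/

set_option autoImplicit false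

noncomputable section

open CongruenceSubgroup ModularGroup
open Fermat.Agent.Periods
open scoped MatrixGroups

namespace Fermat.Agent.TwoAdic.Cohom

variable {D M : ℕ}

section Semilinear

variable {O k : Type*} [CommRing O] [CommRing k] {f₀ : O →+* k} {A B : Type*} [AddCommGroup A]
  [Module O A] [AddCommGroup B] [Module k B] {ρ : Representation O (GL (Fin 2) (ZMod D)) A}
  {σ : Representation k (GL (Fin 2) (ZMod D)) B}

/-- A change of coefficients on cocycles. -/
def cocyclesMapₛ (u : A →ₛₗ[f₀] B) (hu : ∀ g a, u (ρ g a) = σ g (u a)) :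
    cocycles M ρ →ₛₗ[f₀] cocycles M σ where
  toFun f := ⟨fun γ => u ((f : Gamma0 M → A) γ), fun γ δ => by
    show u _ = u _ + _
    rw [f.2.1, map_add, hu], by
    show u _ = 0
    rw [f.2.2, map_zero]⟩
  map_add' f g := Subtype.ext (funext fun γ => map_add u _ _)
  map_smul' a f := Subtype.ext (funext fun γ => map_smulₛₗ u a _)

/-- A change of coefficients on `H¹`. -/
def mapH1ₛ (u : A →ₛₗ[f₀] B) (hu : ∀ g a, u (ρ g a) = σ g (u a)) : H1 M ρ →ₛₗ[f₀] H1 M σ :=
  Submodule.mapQ _ _ (cocyclesMapₛ u hu) fun f hf => by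
    obtain ⟨a, ha⟩ := hf
    refine ⟨u a, funext fun γ => ?_⟩
    show σ (redHom D _ γ) (u a) - u a = u ((f : Gamma0 M → A) γ)
    rw [← hu, ← map_sub]
    exact congrArg u (congrFun ha γ)

theorem mapH1ₛ_mk (u : A →ₛₗ[f₀] B) (hu : ∀ g a, u (ρ g a) = σ g (u a)) (f : cocycles M ρ) :
    mapH1ₛ u hu (Submodule.Quotient.mk f) = Submodule.Quotient.mk (cocyclesMapₛ u hu f) := rfl

theorem heckeH1_mapH1ₛ (u : A →ₛₗ[f₀] B) (hu : ∀ g a, u (ρ g a) = σ g (u a)) {p : ℕ}
    (hp : p.Prime) (hpD : p.Coprime D) (x : H1 M ρ) :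
    heckeH1 σ hp hpD (mapH1ₛ u hu x) = mapH1ₛ u hu (heckeH1 ρ hp hpD x) := by
  obtain ⟨f, rfl⟩ := Submodule.Quotient.mk_surjective _ x
  refine congrArg Submodule.Quotient.mk (Subtype.ext (funext fun γ => ?_))
  show (heckeFamily M hp hpD).onFun σ (fun δ => u ((f : Gamma0 M → A) δ)) γ =
    u ((heckeFamily M hp hpD).onFun ρ f γ)
  simp [Family.onFun_apply, hu]

end Semilinear

variable {O k K : Type*} [CommRing O] [IsDomain O] [IsPrincipalIdealRing O] [Field k] [Field K]
  [Algebra O K] [IsFractionRing O K] {res : O →+* k}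
  {Λ Vk VK : Type*} [AddCommGroup Λ] [Module O Λ] [AddCommGroup Vk] [Module k Vk]
  [AddCommGroup VK] [Module K VK]
  {ρO : Representation O (GL (Fin 2) (ZMod D)) Λ} {ρk : Representation k (GL (Fin 2) (ZMod D)) Vk}
  {ρK : Representation K (GL (Fin 2) (ZMod D)) VK}

omit [IsPrincipalIdealRing O] [IsFractionRing O K] in
/-- Every class over `K` has a nonzero integral multiple. -/
theorem exists_smul_eq_mapH1ₛ [NeZero M] (ι : Λ →ₛₗ[algebraMap O K] VK)
    (hι : ∀ g a, ι (ρO g a) = ρK g (ι a)) (hιinj : Function.Injective ι)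
    (hden : ∀ v : VK, ∃ a : O, a ≠ 0 ∧ algebraMap O K a • v ∈ Set.range ι) (x : H1 M ρK) :
    ∃ a : O, a ≠ 0 ∧ ∃ y : H1 M ρO, mapH1ₛ ι hι y = algebraMap O K a • x := by
  classical
  obtain ⟨f, rfl⟩ := Submodule.Quotient.mk_surjective _ x
  have : Fintype (SL(2, ℤ) ⧸ Gamma0 M) := Fintype.ofFinite _
  choose a ha0 ha using hden
  let d : O := ∏ x : SL(2, ℤ) ⧸ Gamma0 M, a (coc f S x) * a (coc f genU x)
  have hd : d ≠ 0 := Finset.prod_ne_zero_iff.mpr fun x _ => mul_ne_zero (ha0 _) (ha0 _)
  let L : Submodule O Λ := ⊤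
  have hmem : ∀ v : VK, a v ∣ d → algebraMap O K d • v ∈ Set.range ι := by
    rintro v ⟨b, hb⟩
    obtain ⟨l, hl⟩ := ha v
    exact ⟨b • l, by rw [map_smulₛₗ, hl, smul_smul, hb, map_mul, mul_comm]⟩
  set F : cocycles M ρK := algebraMap O K d • f
  have hS : ∀ x, coc F S x ∈ Set.range ι := fun x => hmem _
    ((Dvd.intro _ rfl).trans (Finset.dvd_prod_of_mem _ (Finset.mem_univ x)))
  have hU : ∀ x, coc F genU x ∈ Set.range ι := fun x => hmem _
    ((Dvd.intro_left _ rfl).trans (Finset.dvd_prod_of_mem _ (Finset.mem_univ x)))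
  have hadd : ∀ v w, v ∈ Set.range ι → w ∈ Set.range ι → v + w ∈ Set.range ι := by
    rintro _ _ ⟨v, rfl⟩ ⟨w, rfl⟩; exact ⟨v + w, map_add ι v w⟩
  let P : Subgroup SL(2, ℤ) :=
    { carrier := {g | ∀ x, coc F g x ∈ Set.range ι}
      one_mem' := fun x => by
        have h : tran (M := M) 1 x = 1 := Subtype.ext (by simp [tran])
        exact ⟨0, by rw [map_zero, coc, h, cocycle_one]⟩
      mul_mem' := fun {g h} hg hh x => by
        rw [coc_mul]
        obtain ⟨w, hw⟩ := hh x
        exact hadd _ _ (hg _) ⟨ρO _ w, by rw [hι, hw]⟩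
      inv_mem' := fun {g} hg x => by
        have h : tran g⁻¹ x = (tran g (g⁻¹ • x))⁻¹ := by
          apply Subtype.ext
          simp [tran, mul_assoc]
        obtain ⟨w, hw⟩ := hg (g⁻¹ • x)
        refine ⟨-(ρO (redHom D _ (tran g (g⁻¹ • x))⁻¹) w), ?_⟩
        rw [map_neg, hι, hw, coc, coc, h, cocycle_inv] }
  have htop : ∀ g : SL(2, ℤ), g ∈ P := fun g => by
    have : (⊤ : Subgroup SL(2, ℤ)) ≤ P := by
      rw [← SpecialLinearGroup.SL2Z_generators, Subgroup.closure_le]
      rintro g (rfl | rfl)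
      exacts [hS, by rw [← S_inv_mul_genU]; exact P.mul_mem (P.inv_mem hS) hU]
    exact this trivial
  set x₀ := baseCoset (Gamma0 M)
  let o : Gamma0 M := ⟨x₀.out, (smul_baseCoset_eq_iff _).1 (smul_baseCoset_out _)⟩
  have hval : ∀ γ, (F : Gamma0 M → VK) γ ∈ Set.range ι := fun γ => by
    have ht : tran ((o : SL(2, ℤ)) * γ * (o : SL(2, ℤ))⁻¹) x₀ = γ := by
      apply Subtype.ext
      show ((_ : SL(2, ℤ)) • x₀).out⁻¹ * _ * x₀.out = _
      rw [(smul_baseCoset_eq_iff _).2 (Subgroup.mul_mem _ (Subgroup.mul_mem _ o.2 γ.2)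
        (Subgroup.inv_mem _ o.2))]
      simp [o, x₀, mul_assoc]
    have := htop ((o : SL(2, ℤ)) * γ * (o : SL(2, ℤ))⁻¹) x₀
    rwa [coc, ht] at this
  choose g hg using hval
  have hgm : g ∈ cocycles M ρO := by
    refine ⟨fun γ δ => hιinj ?_, hιinj ?_⟩
    · rw [hg, map_add, hι, hg, hg, F.2.1]
    · rw [hg, map_zero, F.2.2]
  refine ⟨d, hd, Submodule.Quotient.mk ⟨g, hgm⟩, ?_⟩
  rw [mapH1ₛ_mk, ← Submodule.Quotient.mk_smul]
  exact congrArg Submodule.Quotient.mk (Subtype.ext (funext hg))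

omit [IsPrincipalIdealRing O] [Algebra O K] [IsFractionRing O K] [IsDomain O] in
/-- The kernel of reduction on `H¹` is `ϖ H¹`. -/
theorem exists_eq_smul_of_mapH1ₛ_eq_zero {ϖ : O} (r : Λ →ₛₗ[res] Vk)
    (hr : ∀ g a, r (ρO g a) = ρk g (r a)) (hrs : Function.Surjective r)
    (hrker : ∀ x, r x = 0 ↔ ∃ y, x = ϖ • y) (hinjϖ : Function.Injective fun y : Λ => ϖ • y)
    (hρO : ρO (-1) = 1) (x : H1 M ρO) (hx : mapH1ₛ r hr x = 0) :
    ∃ y, x = ϖ • y := by
  obtain ⟨f, rfl⟩ := Submodule.Quotient.mk_surjective _ x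
  rw [mapH1ₛ_mk, ← Submodule.Quotient.mk_zero (coboundaries M ρk), mk_eq_mk_iff] at hx
  obtain ⟨b, hb⟩ := hx
  obtain ⟨a, rfl⟩ := hrs b
  have hmem : ∀ γ, ∃ y, (f : Gamma0 M → Λ) γ - (ρO (redHom D _ γ) a - a) = ϖ • y := fun γ =>
    (hrker _).mp (by
      have h := hb γ
      rw [show ((cocyclesMapₛ r hr f : Gamma0 M → Vk) γ) = r ((f : Gamma0 M → Λ) γ) from rfl] at h
      rw [map_sub, map_sub, hr, h]
      simp)
  choose g hg using hmem
  have hgm : g ∈ cocycles M ρO := by
    refine ⟨fun γ δ => hinjϖ ?_, hinjϖ ?_⟩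
    · show ϖ • g (γ * δ) = ϖ • (g γ + ρO (redHom D _ γ) (g δ))
      rw [smul_add, ← map_smul, ← hg, ← hg, ← hg, f.2.1, map_mul, map_mul, Module.End.mul_apply]
      simp only [map_sub]
      abel
    · show ϖ • g (negOne M) = ϖ • 0
      rw [smul_zero, ← hg, f.2.2, redHom_negOne, hρO, Module.End.one_apply, sub_self, sub_zero]
  refine ⟨Submodule.Quotient.mk ⟨g, hgm⟩, ?_⟩
  rw [← Submodule.Quotient.mk_smul]
  refine mk_eq_mk_iff.mpr ⟨a, fun γ => ?_⟩
  show (f : Gamma0 M → Λ) γ = ϖ • g γ + _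
  rw [← hg]
  abel

omit [IsDomain O] [IsPrincipalIdealRing O] in
theorem map_listProd_sub {H H' : Type*} [AddCommGroup H] [Module O H] [AddCommGroup H'] [Module k H']
    {f₀ : O →+* k} (u : H →ₛₗ[f₀] H') {T : Module.End O H} {T' : Module.End k H'}
    (h : ∀ x, u (T x) = T' (u x)) (l : List O) (x : H) :
    u (((l.map fun a => (T - a • (1 : Module.End O H) : Module.End O H)).prod : Module.End O H) x) =
      ((l.map fun a => (T' - f₀ a • (1 : Module.End k H') : Module.End k H')).prod :
        Module.End k H') (u x) := by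
  induction l generalizing x with
  | nil => simp
  | cons a l ih =>
    rw [List.map_cons, List.prod_cons, List.map_cons, List.prod_cons, Module.End.mul_apply,
      Module.End.mul_apply]
    simp [h, ih, map_smulₛₗ]

omit [IsDomain O] [IsPrincipalIdealRing O] in
/-- A product of factors `T - a` with all `a` congruent to `cc` reduces to a power of `T - cc`. -/
theorem listProd_replicate {H' : Type*} [AddCommGroup H'] [Module k H'] (T' : Module.End k H')
    (l : List O) {cc : k} (hl : ∀ a ∈ l, res a = cc) :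
    (l.map fun a => (T' - res a • (1 : Module.End k H') : Module.End k H')).prod =
      (T' - cc • (1 : Module.End k H')) ^ l.length := by
  rw [← List.prod_replicate]
  congr 1
  rw [List.eq_replicate_iff]
  refine ⟨List.length_map .., fun e he => ?_⟩
  obtain ⟨a, ha, rfl⟩ := List.mem_map.mp he
  rw [hl a ha]

section Abstract

variable {HO HK Hk : Type*} [AddCommGroup HO] [Module O HO] [AddCommGroup HK] [Module O HK]
  [Module K HK] [IsScalarTower O K HK] [AddCommGroup Hk] [Module k Hk] {ι : Type*}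

/-- The lifting inequality for abstract modules with operators. -/
theorem finrank_le_part [IsNoetherian O HO] [FiniteDimensional k Hk] {ϖ : O} (hϖ : ϖ ≠ 0)
    (hres : Function.Surjective res) (hker : RingHom.ker res = Ideal.span {ϖ})
    (I : HO →ₗ[O] HK) (r : HO →ₛₗ[res] Hk)
    (hr0 : ∀ x, r x = 0 → ∃ y, x = ϖ • y)
    (hden : ∀ w : HK, ∃ a : O, a ≠ 0 ∧ ∃ y, I y = a • w)
    (TO : ι → Module.End O HO) (TK : ι → Module.End K HK) (Tk : ι → Module.End k Hk)
    (hI : ∀ i x, I (TO i x) = TK i (I x)) (hr : ∀ i x, r (TO i x) = Tk i (r x))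
    (hcomm : ∀ i j, Commute (Tk i) (Tk j)) (c : ι → k)
    (W : Submodule K HK) (hW : ∀ i, ∀ w ∈ W, TK i w ∈ W)
    (hchar : ∀ i, ∃ l : List O, (∀ a ∈ l, res a = c i) ∧ ∀ w ∈ W,
      ((l.map fun a => (TK i - algebraMap O K a • (1 : Module.End K HK) : Module.End K HK)).prod :
        Module.End K HK) w = 0) :
    Module.finrank K W ≤ Module.finrank k (part Tk c) := by
  classical
  let Q : Submodule O HO := (W.restrictScalars O).comap I
  let R : Submodule k Hk :=
    { carrier := r '' Q
      zero_mem' := ⟨0, zero_mem Q, map_zero _⟩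
      add_mem' := by
        rintro _ _ ⟨x, hx, rfl⟩ ⟨y, hy, rfl⟩
        exact ⟨x + y, add_mem hx hy, map_add _ _ _⟩
      smul_mem' := by
        rintro a _ ⟨x, hx, rfl⟩
        obtain ⟨b, rfl⟩ := hres a
        exact ⟨b • x, Q.smul_mem b hx, map_smulₛₗ _ _ _⟩ }
  let Rt : Submodule k R :=
    { carrier := {z | ∃ x, I x = 0 ∧ r x = (z : Hk)}
      zero_mem' := ⟨0, map_zero _, map_zero _⟩
      add_mem' := by
        rintro a b ⟨x, hx, hx'⟩ ⟨y, hy, hy'⟩
        exact ⟨x + y, by rw [map_add, hx, hy, add_zero], by rw [map_add, hx', hy']; rfl⟩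
      smul_mem' := by
        rintro a z ⟨x, hx, hx'⟩
        obtain ⟨b, rfl⟩ := hres a
        exact ⟨b • x, by rw [map_smul, hx, smul_zero], by rw [map_smulₛₗ, hx']; rfl⟩ }
  have hQ : ∀ i x, x ∈ Q → TO i x ∈ Q := fun i x hx => by
    show I _ ∈ W
    rw [hI]
    exact hW i _ hx
  let TR : ι → Module.End k R := fun i => (Tk i).restrict fun z hz => by
    obtain ⟨x, hx, rfl⟩ := hz
    exact ⟨TO i x, hQ i x hx, hr i x⟩
  let Tq : ι → Module.End k (R ⧸ Rt) := fun i => Submodule.mapQ Rt Rt (TR i) fun z hz => by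
    obtain ⟨x, hx, hx'⟩ := hz
    refine ⟨TO i x, by rw [hI, hx, map_zero], ?_⟩
    show r (TO i x) = Tk i (z : Hk)
    rw [hr, hx']
  -- everything in the quotient belongs to the part
  have hall : ∀ z : R ⧸ Rt, z ∈ part Tq c := by
    intro z
    obtain ⟨⟨_, x, hxQ, rfl⟩, rfl⟩ := Submodule.Quotient.mk_surjective _ z
    refine mem_part.mpr fun i => ?_
    obtain ⟨l, hl, hl0⟩ := hchar i
    refine ⟨l.length, ?_⟩
    set y := ((l.map fun a => (TO i - a • (1 : Module.End O HO) : Module.End O HO)).prod :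
      Module.End O HO) x with hy
    have hy0 : I y = 0 := by
      have h : ∀ (m : List O) (z : HO),
          I (((m.map fun a => (TO i - a • (1 : Module.End O HO) : Module.End O HO)).prod :
            Module.End O HO) z) = ((m.map fun a => (TK i - algebraMap O K a • (1 : Module.End K HK) :
              Module.End K HK)).prod : Module.End K HK) (I z) := by
        intro m
        induction m with
        | nil => intro z; simp
        | cons a m ih =>
          intro z
          rw [List.map_cons, List.prod_cons, List.map_cons, List.prod_cons, Module.End.mul_apply,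
            Module.End.mul_apply]
          simp [hI, ih]
      rw [hy, h]
      exact hl0 _ hxQ
    have hF : ∀ z : R, Rt.mkQ ((TR i - c i • (1 : Module.End k R)) z) =
        (Tq i - c i • (1 : Module.End k (R ⧸ Rt))) (Rt.mkQ z) := fun z =>
      map_sub_smul_apply Rt.mkQ (fun _ => rfl) _ z
    rw [← Submodule.mkQ_apply, ← map_pow_apply Rt.mkQ hF, Submodule.mkQ_apply,
      Submodule.Quotient.mk_eq_zero]
    refine ⟨y, hy0, ?_⟩
    rw [hy, map_listProd_sub r (hr i), listProd_replicate _ l hl]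
    have hsub : ∀ z : R, ((TR i - c i • (1 : Module.End k R)) z : Hk) =
        (Tk i - c i • (1 : Module.End k Hk)) (z : Hk) :=
      map_sub_smul_apply R.subtype (fun _ => rfl) _
    exact (map_pow_apply R.subtype hsub _ ⟨r x, x, hxQ, rfl⟩).symm
  -- dimension of the quotient
  have hK : ∀ (a : O) (z : HK), a • z = algebraMap O K a • z := fun a z =>
    (IsScalarTower.algebraMap_smul K a z).symm
  have hne : ∀ {a : O}, a ≠ 0 → algebraMap O K a ≠ 0 := fun {a} ha h =>
    ha (IsFractionRing.injective O K (h.trans (map_zero _).symm))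
  let P : Submodule O HK := Submodule.map I Q
  have : Module.Finite O P := Module.Finite.iff_fg.mpr ((IsNoetherian.noetherian Q).map I)
  have : Module.IsTorsionFree O P := by
    have : Module.IsTorsionFree O HK := Module.IsTorsionFree.trans_faithfulSMul O K HK
    exact Function.Injective.moduleIsTorsionFree (R := O) P.subtype Subtype.val_injective
      (fun _ _ => rfl)
  let b := Module.Free.chooseBasis O P
  have hPW : ∀ z ∈ P, z ∈ W := by
    rintro _ ⟨x, hx, rfl⟩
    exact hx
  have hspan : W ≤ Submodule.span K (Set.range fun i => (b i : HK)) := by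
    intro w hw
    obtain ⟨a, ha, y, hy⟩ := hden w
    have hyP : a • w ∈ P := ⟨y, by
      show I y ∈ W
      rw [hy, hK]
      exact W.smul_mem _ hw, hy⟩
    have hmem : a • w ∈ Submodule.span O (Set.range fun i => (b i : HK)) := by
      have h := Submodule.mem_map_of_mem (f := P.subtype) (b.mem_span ⟨a • w, hyP⟩)
      rwa [Submodule.map_span, ← Set.range_comp] at h
    have hmemK := Submodule.span_le_restrictScalars O K _ hmem
    rw [hK] at hmemK
    exact (Submodule.smul_mem_iff _ (hne ha)).mp hmemK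
  have hdimW : Module.finrank K W ≤ Fintype.card (Module.Free.ChooseBasisIndex O P) := by
    have : FiniteDimensional K (Submodule.span K (Set.range fun i => (b i : HK))) :=
      FiniteDimensional.span_of_finite K (Set.finite_range _)
    exact (Submodule.finrank_mono hspan).trans (finrank_range_le_card _)
  choose x hxQ hxI using fun i => (b i).2
  have hli : LinearIndependent k fun i =>
      (Submodule.Quotient.mk ⟨r (x i), x i, hxQ i, rfl⟩ : R ⧸ Rt) := by
    rw [Fintype.linearIndependent_iff]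
    intro g hg i
    choose g' hg' using fun i => hres (g i)
    have hmem : (∑ i, g i • (⟨r (x i), x i, hxQ i, rfl⟩ : R)) ∈ Rt := by
      rw [← Submodule.Quotient.mk_eq_zero, ← Submodule.mkQ_apply, map_sum]
      simpa using hg
    obtain ⟨t, ht0, ht⟩ := hmem
    obtain ⟨y, hy⟩ := hr0 ((∑ i, g' i • x i) - t) (by
      rw [map_sub, ht, map_sum, Submodule.coe_sum]
      simp [map_smulₛₗ, hg'])
    have hIy : I y ∈ P := by
      refine ⟨y, ?_, rfl⟩
      show I y ∈ W
      have h1 : I (ϖ • y) ∈ W := by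
        rw [← hy, map_sub, ht0, sub_zero, map_sum]
        exact W.sum_mem fun i _ => by
          rw [map_smul, hxI, hK]
          exact W.smul_mem _ (hPW _ (b i).2)
      rw [map_smul, hK] at h1
      exact (Submodule.smul_mem_iff _ (hne hϖ)).mp h1
    have heq : (∑ i, g' i • b i) = ϖ • (⟨I y, hIy⟩ : P) := by
      refine Subtype.ext ?_
      rw [Submodule.coe_sum, Submodule.coe_smul]
      show _ = ϖ • I y
      rw [← map_smul, ← hy, map_sub, ht0, sub_zero, map_sum]
      exact Finset.sum_congr rfl fun i _ => by rw [map_smul, hxI]; rfl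
    have hcoef := congrArg (fun z => b.repr z i) heq
    simp only [map_sum, map_smul, Finsupp.coe_finsetSum, Finset.sum_apply, Finsupp.smul_apply,
      b.repr_self, Finsupp.single_apply, smul_eq_mul, mul_ite, mul_one, mul_zero,
      Finset.sum_ite_eq', Finset.mem_univ, if_true] at hcoef
    have : res (g' i) = 0 := by
      rw [← RingHom.mem_ker, hker, hcoef]
      exact Ideal.mul_mem_right _ _ (Ideal.mem_span_singleton_self ϖ)
    rwa [hg'] at this
  refine hdimW.trans (hli.fintype_card_le_finrank.trans ?_)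
  -- back to the part
  have hR : ∀ i j, Commute (TR i) (TR j) := fun i j => LinearMap.ext fun z => Subtype.ext
    (DFunLike.congr_fun (hcomm i j).eq z.1)
  let g : part TR c →ₗ[k] R ⧸ Rt := Rt.mkQ.comp (Submodule.subtype _)
  have hg : Function.Surjective g := fun z => by
    obtain ⟨v, hv, he⟩ := exists_mem_part_map_eq hR Rt.mkQ (fun _ _ => rfl) (hall z)
      (by rw [Submodule.range_mkQ]; exact Submodule.mem_top)
    exact ⟨⟨v, hv⟩, he⟩
  let j : part TR c →ₗ[k] part Tk c :=
    (R.subtype.comp (Submodule.subtype _)).codRestrict _ fun z =>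
      map_mem_part R.subtype (fun _ _ => rfl) z.2
  have hj : Function.Injective j := fun a b h => Subtype.ext (Subtype.ext
    (congrArg (fun z : part Tk c => (z : Hk)) h))
  exact (g.finrank_le_finrank_of_surjective hg).trans
    (LinearMap.finrank_le_finrank_of_injective (f := j) hj)

end Abstract

/-- **The lifting inequality.** -/
theorem finrank_le_heckePart [NeZero M] [Module.Finite O Λ] [Module.IsTorsionFree O Λ]
    [FiniteDimensional k Vk] {S : Set ℕ} (hS : GoodPrimes D S) {c : ℕ → k} {ϖ : O} (hϖ : ϖ ≠ 0)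
    (hres : Function.Surjective res) (hker : RingHom.ker res = Ideal.span {ϖ})
    (ι : Λ →ₛₗ[algebraMap O K] VK) (hι : ∀ g a, ι (ρO g a) = ρK g (ι a))
    (hιinj : Function.Injective ι)
    (hden : ∀ v : VK, ∃ a : O, a ≠ 0 ∧ algebraMap O K a • v ∈ Set.range ι)
    (r : Λ →ₛₗ[res] Vk) (hr : ∀ g a, r (ρO g a) = ρk g (r a)) (hrs : Function.Surjective r)
    (hrker : ∀ x, r x = 0 ↔ ∃ y, x = ϖ • y) (hρO : ρO (-1) = 1)
    (W : Submodule K (H1 M ρK)) (hW : ∀ (ℓ : S), ∀ w ∈ W, opsH1 hS ρK ℓ w ∈ W)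
    (hchar : ∀ (ℓ : S), ∃ l : List O, (∀ a ∈ l, res a = c ℓ) ∧ ∀ w ∈ W,
      ((l.map fun a => (opsH1 hS ρK ℓ - algebraMap O K a • (1 : Module.End K (H1 M ρK)) :
        Module.End K (H1 M ρK))).prod : Module.End K (H1 M ρK)) w = 0) :
    Module.finrank K W ≤ Module.finrank k (heckePart M hS c ρk) := by
  have : Fintype (SL(2, ℤ) ⧸ Gamma0 M) := Fintype.ofFinite _
  have : IsNoetherian O (cocycles M ρO) :=
    isNoetherian_of_injective cocValues cocValues_injective
  have : IsNoetherian O (H1 M ρO) :=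
    isNoetherian_of_surjective (coboundaries M ρO).mkQ (Submodule.range_mkQ _)
  have := finiteDimensional_H1 (M := M) ρk
  let : Module O (H1 M ρK) := Module.compHom _ (algebraMap O K)
  have : IsScalarTower O K (H1 M ρK) := ⟨fun a b x => by
    show (a • b) • x = algebraMap O K a • b • x
    rw [Algebra.smul_def, smul_smul]⟩
  let I : H1 M ρO →ₗ[O] H1 M ρK :=
    { toFun := mapH1ₛ ι hι
      map_add' := map_add _
      map_smul' := fun a x => map_smulₛₗ (mapH1ₛ ι hι) a x }
  exact finrank_le_part hϖ hres hker I (mapH1ₛ r hr)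
    (exists_eq_smul_of_mapH1ₛ_eq_zero r hr hrs hrker (smul_right_injective Λ hϖ) hρO)
    (exists_smul_eq_mapH1ₛ ι hι hιinj hden) (opsH1 hS ρO) (opsH1 hS ρK) (opsH1 hS ρk)
    (fun i x => (heckeH1_mapH1ₛ ι hι _ _ x).symm) (fun i x => (heckeH1_mapH1ₛ r hr _ _ x).symm)
    (fun i j => heckeH1_commute ρk _ _ _ _) _ W hW hchar

end Fermat.Agent.TwoAdic.Cohom
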