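import Fermat.Agent.TwoAdic.Cohom.Defs
import Fermat.Agent.Periods.Group.Cocycle
import Mathlib.LinearAlgebra.FiniteDimensional.Basic

/-!
# LT2 P4b: `H¹(Γ₀(M), ·)` is right exact and finite, when `Γ₀(M)/±1` is torsion-free

`PSL₂(ℤ)` is generated freely by `S` of order two and `U` of order three. A cocycle of `Γ₀(M)` is
the same as a pair of values at `S` and `U` of a cocycle on the cosets, and the only conditions
are on the orbits of `S` and `U`, which are free.
-/

set_option autoImplicit false

noncomputable section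

open CongruenceSubgroup ModularGroup MulAction
open Fermat.Agent.Periods
open scoped MatrixGroups

namespace Fermat.Agent.TwoAdic.Cohom

variable {D M : ℕ} {k : Type*} [CommRing k] {A : Type*} [AddCommGroup A] [Module k A]
  {ρ : Representation k (GL (Fin 2) (ZMod D)) A}

local notation "X" => (SL(2, ℤ) ⧸ Gamma0 M)

/-- The Schreier element of `g` at the coset `x`. -/
def tran (g : SL(2, ℤ)) (x : X) : Gamma0 M :=
  ⟨(g • x).out⁻¹ * g * x.out, out_conj_mem g x⟩

theorem tran_mul (g h : SL(2, ℤ)) (x : X) :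
    tran (g * h) x = tran g (h • x) * tran h x := by
  apply Subtype.ext
  simp only [tran, Subgroup.coe_mul, mul_smul]
  group

theorem tran_neg_one (x : X) : tran (M := M) (-1) x = negOne M := by
  apply Subtype.ext
  show ((-1 : SL(2, ℤ)) • x).out⁻¹ * -1 * x.out = (-1 : SL(2, ℤ))
  rw [neg_one_smul_coset (negOne M).2]
  simp

/-- `±1` are the only elements of finite order. -/
def IsTorsionFreeMod (M : ℕ) : Prop :=
  ∀ γ : Gamma0 M, 4 ≤ (gammaMat γ).trace ^ 2

theorem smul_ne_self (htf : IsTorsionFreeMod M) {g : SL(2, ℤ)}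
    (hg : (g : Matrix (Fin 2) (Fin 2) ℤ).trace ^ 2 < 4) (x : X) : g • x ≠ x := by
  intro h
  have hmem : x.out⁻¹ * g * x.out ∈ Gamma0 M := by
    have := out_conj_mem g x
    rwa [h] at this
  have h1 : (x.out⁻¹ * g * x.out : SL(2, ℤ)).1.trace = (g : Matrix (Fin 2) (Fin 2) ℤ).trace := by
    exact trace_conj x.out g
  have h2 := htf ⟨_, hmem⟩
  rw [gammaMat, h1] at h2
  omega

theorem trace_S_sq : ((ModularGroup.S : SL(2, ℤ)) : Matrix (Fin 2) (Fin 2) ℤ).trace ^ 2 < 4 := by
  simp [ModularGroup.S, Matrix.trace_fin_two]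

theorem trace_genU_sq : (genU : Matrix (Fin 2) (Fin 2) ℤ).trace ^ 2 < 4 := by
  rw [coe_genU]; simp [Matrix.trace_fin_two]

variable (ρ) in
/-- The twisted permutation attached to `g` and prescribed values `a`. -/
def twistPerm (g : SL(2, ℤ)) (a : X → A) : Equiv.Perm (X × A) where
  toFun p := (g • p.1, ρ (redHom D _ (tran g p.1)) p.2 + a p.1)
  invFun p := (g⁻¹ • p.1, ρ (redHom D _ (tran g (g⁻¹ • p.1)))⁻¹ (p.2 - a (g⁻¹ • p.1)))
  left_inv p := by
    simp only [inv_smul_smul, add_sub_cancel_right, ← Module.End.mul_apply, ← map_mul,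
      inv_mul_cancel, map_one, Module.End.one_apply]
  right_inv p := by
    simp only [smul_inv_smul, ← Module.End.mul_apply, ← map_mul, mul_inv_cancel, map_one,
      Module.End.one_apply, sub_add_cancel]

theorem twistPerm_apply (g : SL(2, ℤ)) (a : X → A) (x : X) (v : A) :
    twistPerm ρ g a (x, v) = (g • x, ρ (redHom D _ (tran g x)) v + a x) := rfl

variable (hρ : ρ (-1) = 1)
include hρ

theorem act_tran_neg_one (x : X) (v : A) : ρ (redHom D _ (tran (-1) x)) v = v := by
  rw [tran_neg_one, redHom_negOne, hρ, Module.End.one_apply]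

theorem twistPerm_S_sq {a : X → A}
    (ha : ∀ x, ρ (redHom D _ (tran S ((S : SL(2, ℤ)) • x))) (a x) + a ((S : SL(2, ℤ)) • x) = 0) :
    twistPerm ρ S a * twistPerm ρ S a = 1 := by
  refine Equiv.ext fun ⟨x, v⟩ => ?_
  rw [Equiv.Perm.mul_apply, twistPerm_apply, twistPerm_apply, smul_smul, S_mul_S, map_add,
    neg_one_smul_coset (negOne M).2, add_assoc, ha, add_zero, ← Module.End.mul_apply, ← map_mul,
    ← map_mul, ← tran_mul, S_mul_S, act_tran_neg_one hρ]
  rfl

theorem twistPerm_genU_cube {b : X → A}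
    (hb : ∀ x, ρ (redHom D _ (tran genU (genU • genU • x))) (ρ (redHom D _ (tran genU (genU • x)))
      (b x) + b (genU • x)) + b (genU • genU • x) = 0) :
    twistPerm ρ genU b ^ 3 = 1 := by
  refine Equiv.ext fun ⟨x, v⟩ => ?_
  have h3 : genU * genU * genU = (-1 : SL(2, ℤ)) := by rw [← genU_pow_three, pow_succ, pow_two]
  rw [show twistPerm ρ genU b ^ 3 = twistPerm ρ genU b * (twistPerm ρ genU b * twistPerm ρ genU b)
    by rw [pow_succ', pow_two], Equiv.Perm.mul_apply, Equiv.Perm.mul_apply, twistPerm_apply, twistPerm_apply,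
    twistPerm_apply]
  have hcomp : ρ (redHom D _ (tran genU (genU • genU • x)))
      (ρ (redHom D _ (tran genU (genU • x))) (ρ (redHom D _ (tran genU x)) v)) = v := by
    rw [← Module.End.mul_apply, ← Module.End.mul_apply, ← map_mul, ← map_mul, ← map_mul, ← map_mul,
      mul_assoc, ← tran_mul, ← mul_smul, ← tran_mul, ← mul_assoc, h3, act_tran_neg_one hρ]
  rw [smul_smul genU genU x, smul_smul genU (genU * genU) x, ← mul_assoc, h3,
    neg_one_smul_coset (negOne M).2]
  refine Prod.ext rfl ?_
  show _ = v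
  have hb' := hb x
  rw [smul_smul genU genU x] at hb' hcomp
  rw [map_add, map_add, map_add, hcomp]
  rw [map_add] at hb'
  rw [add_assoc, add_assoc, ← add_assoc (ρ (redHom D _ (tran genU ((genU * genU) • x)))
    (ρ (redHom D _ (tran genU (genU • x))) (b x))), hb', add_zero]

omit hρ in
/-- The values on the cosets of a cocycle. -/
def coc (f : cocycles M ρ) (g : SL(2, ℤ)) (x : X) : A := (f : Gamma0 M → A) (tran g x)

omit hρ in
theorem coc_mul (f : cocycles M ρ) (g h : SL(2, ℤ)) (x : X) :
    coc f (g * h) x = coc f g (h • x) + ρ (redHom D _ (tran g (h • x))) (coc f h x) := by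
  rw [coc, tran_mul, f.2.1]
  rfl

omit hρ in
theorem coc_neg_one (f : cocycles M ρ) (x : X) : coc f (-1) x = 0 := by
  rw [coc, tran_neg_one]; exact f.2.2

omit hρ in
theorem coc_S_cond (f : cocycles M ρ) (x : X) :
    ρ (redHom D _ (tran S ((S : SL(2, ℤ)) • x))) (coc f S x) + coc f S ((S : SL(2, ℤ)) • x) = 0 := by
  rw [add_comm, ← coc_mul, S_mul_S, coc_neg_one]

omit hρ in
/-- A cocycle is determined by its values at `S` and `U`. -/
theorem coc_ext {f f' : cocycles M ρ} (hS : coc f S = coc f' S)
    (hU : coc f genU = coc f' genU) : f = f' := by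
  let P : Subgroup SL(2, ℤ) :=
    { carrier := {g | ∀ x, coc f g x = coc f' g x}
      one_mem' := fun x => by
        have h : tran (M := M) 1 x = 1 := Subtype.ext (by simp [tran])
        rw [coc, coc, h, cocycle_one, cocycle_one]
      mul_mem' := fun {g h} hg hh x => by rw [coc_mul, coc_mul, hg, hh]
      inv_mem' := fun {g} hg x => by
        have h : tran g⁻¹ x = (tran g (g⁻¹ • x))⁻¹ := by
          apply Subtype.ext
          simp [tran, mul_assoc]
        have hg' : (f : Gamma0 M → A) (tran g (g⁻¹ • x)) = (f' : Gamma0 M → A) (tran g (g⁻¹ • x)) :=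
          hg (g⁻¹ • x)
        rw [coc, coc, h, cocycle_inv, cocycle_inv, hg'] }
  have hS' : (S : SL(2, ℤ)) ∈ P := congrFun hS
  have hT' : (T : SL(2, ℤ)) ∈ P := by
    rw [← S_inv_mul_genU]; exact P.mul_mem (P.inv_mem hS') (congrFun hU)
  have htop : ∀ g : SL(2, ℤ), g ∈ P := fun g => by
    have : (⊤ : Subgroup SL(2, ℤ)) ≤ P := by
      rw [← SpecialLinearGroup.SL2Z_generators, Subgroup.closure_le]
      rintro g (rfl | rfl)
      exacts [hS', hT']
    exact this trivial
  refine Subtype.ext (funext fun γ => ?_)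
  set x₀ := baseCoset (Gamma0 M)
  let o : Gamma0 M := ⟨x₀.out, (smul_baseCoset_eq_iff _).1 (smul_baseCoset_out _)⟩
  have ht : tran ((o : SL(2, ℤ)) * γ * (o : SL(2, ℤ))⁻¹) x₀ = γ := by
    apply Subtype.ext
    show ((_ : SL(2, ℤ)) • x₀).out⁻¹ * _ * x₀.out = _
    rw [(smul_baseCoset_eq_iff _).2 (Subgroup.mul_mem _ (Subgroup.mul_mem _ o.2 γ.2)
      (Subgroup.inv_mem _ o.2))]
    simp [o, x₀, mul_assoc]
  have := htop ((o : SL(2, ℤ)) * γ * (o : SL(2, ℤ))⁻¹) x₀
  rwa [coc, coc, ht] at this

/-- Any values at `S` and `U` satisfying the orbit conditions come from a cocycle. -/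
theorem exists_cocycle {B : Type*} [AddCommGroup B] [Module k B]
    {τ : Representation k (GL (Fin 2) (ZMod D)) B} (u : A →ₗ[k] B)
    (hu : ∀ g a, u (ρ g a) = τ g (u a)) (h₀ : cocycles M τ) {a b : X → A}
    (ha : ∀ x, ρ (redHom D _ (tran S ((S : SL(2, ℤ)) • x))) (a x) + a ((S : SL(2, ℤ)) • x) = 0)
    (hb : ∀ x, ρ (redHom D _ (tran genU (genU • genU • x))) (ρ (redHom D _ (tran genU (genU • x)))
      (b x) + b (genU • x)) + b (genU • genU • x) = 0)
    (hua : ∀ x, u (a x) = coc h₀ S x) (hub : ∀ x, u (b x) = coc h₀ genU x) :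
    ∃ f : cocycles M ρ, cocyclesMap u hu f = h₀ := by
  set F := liftHom (twistPerm_S_sq hρ ha) (twistPerm_genU_cube hρ hb) with hF
  let P : Subgroup SL(2, ℤ) :=
    { carrier := {g | ∀ x v, F g (x, v) = (g • x, ρ (redHom D _ (tran g x)) v + (F g (x, 0)).2)}
      one_mem' := fun x v => by
        have h : tran (M := M) 1 x = 1 := Subtype.ext (by simp [tran])
        simp [h]
      mul_mem' := fun {g h} hg hh x v => by
        have e : ∀ v, F (g * h) (x, v) = ((g * h) • x, ρ (redHom D _ (tran (g * h) x)) v +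
            (ρ (redHom D _ (tran g (h • x))) (F h (x, 0)).2 + (F g (h • x, 0)).2)) := fun v => by
          rw [map_mul, Equiv.Perm.mul_apply, hh, hg, mul_smul, map_add, tran_mul, map_mul, map_mul,
            Module.End.mul_apply, add_assoc]
        rw [e v, e 0, map_zero, zero_add]
      inv_mem' := fun {g} hg x v => by
        have h : tran g⁻¹ x = (tran g (g⁻¹ • x))⁻¹ := by
          apply Subtype.ext
          simp [tran, mul_assoc]
        have e : ∀ v, F g⁻¹ (x, v) = (g⁻¹ • x,
            ρ (redHom D _ (tran g⁻¹ x)) (v - (F g (g⁻¹ • x, 0)).2)) := fun v => by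
          rw [map_inv]
          refine (Equiv.symm_apply_eq (F g)).2 ?_
          rw [hg, smul_inv_smul, ← Module.End.mul_apply, ← map_mul, ← map_mul, h, mul_inv_cancel,
            map_one, map_one, Module.End.one_apply, sub_add_cancel]
        rw [e v, e 0, zero_sub, map_neg, map_sub, sub_eq_add_neg] }
  have hS : (S : SL(2, ℤ)) ∈ P := fun x v => by
    simp [hF, liftHom_S, twistPerm_apply]
  have hU : genU ∈ P := fun x v => by
    simp [hF, liftHom_genU, twistPerm_apply]
  have htop : ∀ g : SL(2, ℤ), g ∈ P := fun g => by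
    have : (⊤ : Subgroup SL(2, ℤ)) ≤ P := by
      rw [← SpecialLinearGroup.SL2Z_generators, Subgroup.closure_le]
      rintro g (rfl | rfl)
      exacts [hS, by rw [← S_inv_mul_genU]; exact P.mul_mem (P.inv_mem hS) hU]
    exact this trivial
  -- values on cosets
  let c : SL(2, ℤ) → X → A := fun g x => (F g (x, 0)).2
  have hc : ∀ g h x, c (g * h) x = c g (h • x) + ρ (redHom D _ (tran g (h • x))) (c h x) := by
    intro g h x
    show (F (g * h) (x, 0)).2 = _
    rw [map_mul, Equiv.Perm.mul_apply, htop h x 0, htop g, map_zero, zero_add, add_comm]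
  set x₀ := baseCoset (Gamma0 M)
  let o : Gamma0 M := ⟨x₀.out, (smul_baseCoset_eq_iff _).1 (smul_baseCoset_out _)⟩
  have hfix : ∀ γ : Gamma0 M, ((o : SL(2, ℤ)) * γ * (o : SL(2, ℤ))⁻¹) • x₀ = x₀ := fun γ =>
    (smul_baseCoset_eq_iff _).2 (Subgroup.mul_mem _ (Subgroup.mul_mem _ o.2 γ.2)
      (Subgroup.inv_mem _ o.2))
  have ht : ∀ γ : Gamma0 M, tran ((o : SL(2, ℤ)) * γ * (o : SL(2, ℤ))⁻¹) x₀ = γ := fun γ => by
    apply Subtype.ext
    show ((_ : SL(2, ℤ)) • x₀).out⁻¹ * _ * x₀.out = _
    rw [hfix γ]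
    simp [o, x₀, mul_assoc]
  have hQ : ∀ g x, u (c g x) = coc h₀ g x := by
    let Q : Subgroup SL(2, ℤ) :=
      { carrier := {g | ∀ x, u (c g x) = coc h₀ g x}
        one_mem' := fun x => by
          have h : tran (M := M) 1 x = 1 := Subtype.ext (by simp [tran])
          simp [c, coc, h, cocycle_one]
        mul_mem' := fun {g h} hg hh x => by rw [hc, map_add, hu, hg, hh, coc_mul]
        inv_mem' := fun {g} hg x => by
          have h : tran g⁻¹ x = (tran g (g⁻¹ • x))⁻¹ := by
            apply Subtype.ext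
            simp [tran, mul_assoc]
          have h1 := hc g g⁻¹ x
          have h2 : ∀ y, c 1 y = 0 := fun y => by simp [c]
          rw [mul_inv_cancel, h2] at h1
          have h3 : c g⁻¹ x = -ρ (redHom D _ (tran g⁻¹ x)) (c g (g⁻¹ • x)) := by
            rw [eq_neg_iff_add_eq_zero]
            have h4 := congrArg (ρ (redHom D _ (tran g⁻¹ x))) h1
            rw [map_zero, map_add, ← Module.End.mul_apply, ← map_mul, ← map_mul, h, inv_mul_cancel,
              map_one, map_one, Module.End.one_apply] at h4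
            rw [h, add_comm, ← h4]
          have hg' : u (c g (g⁻¹ • x)) = (h₀ : Gamma0 M → B) (tran g (g⁻¹ • x)) := hg (g⁻¹ • x)
          rw [h3, map_neg, hu, hg', coc, h, cocycle_inv] }
    have hSQ : (S : SL(2, ℤ)) ∈ Q := fun x => by
      show u (c S x) = _
      simp [c, hF, liftHom_S, twistPerm_apply, hua]
    have hUQ : genU ∈ Q := fun x => by
      show u (c genU x) = _
      simp [c, hF, liftHom_genU, twistPerm_apply, hub]
    intro g
    have : (⊤ : Subgroup SL(2, ℤ)) ≤ Q := by
      rw [← SpecialLinearGroup.SL2Z_generators, Subgroup.closure_le]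
      rintro g (rfl | rfl)
      exacts [hSQ, by rw [← S_inv_mul_genU]; exact Q.mul_mem (Q.inv_mem hSQ) hUQ]
    exact this (Subgroup.mem_top g)
  let f : Gamma0 M → A := fun γ => c ((o : SL(2, ℤ)) * γ * (o : SL(2, ℤ))⁻¹) x₀
  have hf : f ∈ cocycles M ρ := by
    refine ⟨fun γ δ => ?_, ?_⟩
    · have e : (o : SL(2, ℤ)) * (γ * δ : Gamma0 M) * (o : SL(2, ℤ))⁻¹ =
          ((o : SL(2, ℤ)) * γ * (o : SL(2, ℤ))⁻¹) * ((o : SL(2, ℤ)) * δ * (o : SL(2, ℤ))⁻¹) := by
        rw [Subgroup.coe_mul]; group
      show c _ x₀ = c _ x₀ + _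
      rw [e, hc, hfix δ, ht γ]
    · show c _ x₀ = 0
      have e : (o : SL(2, ℤ)) * (negOne M : Gamma0 M) * (o : SL(2, ℤ))⁻¹ = -1 := by
        show (o : SL(2, ℤ)) * (-1) * _ = _
        simp
      rw [e]
      simp [c, hF, liftHom_neg_one]
  refine ⟨⟨f, hf⟩, Subtype.ext (funext fun γ => ?_)⟩
  show u (c _ x₀) = _
  rw [hQ, coc, ht]

/-- `H¹(Γ₀(M), ·)` is right exact on cocycles, when `Γ₀(M)/±1` is torsion-free. -/
theorem cocyclesMap_surjective [NeZero M] (htf : IsTorsionFreeMod M) {B : Type*} [AddCommGroup B]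
    [Module k B] {τ : Representation k (GL (Fin 2) (ZMod D)) B} (u : A →ₗ[k] B)
    (hu : ∀ g a, u (ρ g a) = τ g (u a)) (hus : Function.Surjective u) :
    Function.Surjective (cocyclesMap (M := M) u hu) := by
  classical
  have : Fintype X := Fintype.ofFinite _
  intro h₀
  let e : X → ℕ := fun x => (Fintype.equivFin X x : ℕ)
  have he : Function.Injective e := fun x y h => (Fintype.equivFin X).injective (Fin.ext h)
  choose l hl using hus
  -- values at `S`
  let a : X → A := fun x =>
    if e x < e ((S : SL(2, ℤ)) • x) then l (coc h₀ S x)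
    else -ρ (redHom D _ (tran S x)) (l (coc h₀ S ((S : SL(2, ℤ)) • x)))
  have hSS : ∀ x : X, (S : SL(2, ℤ)) • (S : SL(2, ℤ)) • x = x := fun x => by
    rw [smul_smul, S_mul_S, neg_one_smul_coset (negOne M).2]
  have hSne : ∀ x : X, e ((S : SL(2, ℤ)) • x) ≠ e x := fun x h =>
    smul_ne_self htf trace_S_sq x (he h)
  have hSp : ∀ (x : X) (v : A), ρ (redHom D _ (tran S ((S : SL(2, ℤ)) • x)))
      (ρ (redHom D _ (tran S x)) v) = v := fun x v => by
    rw [← Module.End.mul_apply, ← map_mul, ← map_mul, ← tran_mul, S_mul_S, act_tran_neg_one hρ]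
  have ha : ∀ x, ρ (redHom D _ (tran S ((S : SL(2, ℤ)) • x))) (a x) +
      a ((S : SL(2, ℤ)) • x) = 0 := by
    intro x
    have := hSne x
    by_cases hx : e x < e ((S : SL(2, ℤ)) • x)
    · have h' : ¬ e ((S : SL(2, ℤ)) • x) < e ((S : SL(2, ℤ)) • (S : SL(2, ℤ)) • x) := by
        rw [hSS]; omega
      simp only [a, if_pos hx, if_neg h']
      rw [hSS, add_neg_cancel]
    · have h' : e ((S : SL(2, ℤ)) • x) < e ((S : SL(2, ℤ)) • (S : SL(2, ℤ)) • x) := by
        rw [hSS]; omega
      simp only [a, if_neg hx, if_pos h']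
      rw [map_neg, hSp, neg_add_cancel]
  have hua : ∀ x, u (a x) = coc h₀ S x := by
    intro x
    by_cases hx : e x < e ((S : SL(2, ℤ)) • x)
    · simp only [a, if_pos hx, hl]
    · simp only [a, if_neg hx, map_neg, hu, hl]
      have h1 := coc_S_cond h₀ ((S : SL(2, ℤ)) • x)
      rw [hSS] at h1
      exact neg_eq_of_add_eq_zero_right h1
  -- values at `U`
  let b : X → A := fun x =>
    if e (genU • x) < e x ∧ e (genU • genU • x) < e x then
      -ρ (redHom D _ (tran genU x)) (ρ (redHom D _ (tran genU (genU • genU • x)))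
        (l (coc h₀ genU (genU • x))) + l (coc h₀ genU (genU • genU • x)))
    else l (coc h₀ genU x)
  have hU3 : ∀ x : X, genU • genU • genU • x = x := fun x => by
    rw [smul_smul, smul_smul, show genU * genU * genU = (-1 : SL(2, ℤ)) by
      rw [← genU_pow_three, pow_succ, pow_two], neg_one_smul_coset (negOne M).2]
  have hUne : ∀ x : X, e (genU • x) ≠ e x := fun x h => smul_ne_self htf trace_genU_sq x (he h)
  let C : (X → A) → X → A := fun β x => ρ (redHom D _ (tran genU (genU • genU • x)))
    (ρ (redHom D _ (tran genU (genU • x))) (β x) + β (genU • x)) + β (genU • genU • x)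
  have hrot : ∀ (β : X → A) (x : X),
      C β (genU • x) = ρ (redHom D _ (tran genU x)) (C β x) := by
    intro β x
    simp only [C, hU3, map_add]
    have h3 : ∀ v : A, ρ (redHom D _ (tran genU x)) (ρ (redHom D _ (tran genU (genU • genU • x)))
        (ρ (redHom D _ (tran genU (genU • x))) v)) = v := fun v => by
      conv_lhs => rw [show tran genU x = tran genU (genU • genU • genU • x) by rw [hU3]]
      rw [← Module.End.mul_apply, ← Module.End.mul_apply, ← map_mul, ← map_mul, ← map_mul,
        ← map_mul, mul_assoc, ← tran_mul, ← mul_smul, ← tran_mul, ← mul_assoc,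
        show genU * genU * genU = (-1 : SL(2, ℤ)) by rw [← genU_pow_three, pow_succ, pow_two],
        act_tran_neg_one hρ]
    rw [h3]
    abel
  have hb : ∀ x, C b x = 0 := by
    have hmax : ∀ z, (e (genU • z) < e z ∧ e (genU • genU • z) < e z) →
        C b (genU • z) = 0 := by
      intro z hz
      simp only [C, hU3]
      have h1 : ¬ (e (genU • genU • z) < e (genU • z) ∧
          e (genU • genU • genU • z) < e (genU • z)) := by rw [hU3]; omega
      have h2 : ¬ (e (genU • genU • genU • z) < e (genU • genU • z) ∧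
          e (genU • genU • genU • genU • z) < e (genU • genU • z)) := by rw [hU3]; omega
      simp only [b, if_pos hz, if_neg h1, if_neg h2]
      rw [add_neg_cancel]
    intro x
    have h01 := hUne x
    have h12 := hUne (genU • x)
    have h20 := hUne (genU • genU • x)
    rw [hU3] at h20
    have key : C b x = 0 ∨ C b (genU • x) = 0 ∨ C b (genU • genU • x) = 0 := by
      by_cases hx : e (genU • x) < e x ∧ e (genU • genU • x) < e x
      · exact Or.inr (Or.inl (hmax x hx))
      by_cases hy : e (genU • genU • x) < e (genU • x) ∧ e x < e (genU • x)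
      · exact Or.inr (Or.inr (hmax (genU • x) (by rwa [hU3])))
      · have := hmax (genU • genU • x) (by rw [hU3]; omega)
        rw [hU3] at this
        exact Or.inl this
    rcases key with h | h | h
    · exact h
    · have := hrot b (genU • x)
      rw [h, map_zero] at this
      have h2 := hrot b (genU • genU • x)
      rwa [hU3, this, map_zero] at h2
    · have h2 := hrot b (genU • genU • x)
      rwa [hU3, h, map_zero] at h2
  have hub : ∀ x, u (b x) = coc h₀ genU x := by
    intro x
    by_cases hx : e (genU • x) < e x ∧ e (genU • genU • x) < e x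
    · simp only [b, if_pos hx, map_neg, map_add, hu, hl]
      have h1 := coc_mul h₀ genU (genU * genU) (genU • x)
      rw [show genU * (genU * genU) = (-1 : SL(2, ℤ)) by rw [← genU_pow_three, pow_succ', pow_two],
        coc_neg_one, coc_mul, mul_smul, hU3, map_add] at h1
      rw [neg_eq_iff_add_eq_zero, h1]
      abel
    · simp only [b, if_neg hx, hl]
  exact exists_cocycle hρ u hu h₀ ha hb hua hub

omit hρ in
/-- The values at `S` and `U` determine a cocycle linearly. -/
def cocValues : cocycles M ρ →ₗ[k] (X → A) × (X → A) where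
  toFun f := (coc f S, coc f genU)
  map_add' _ _ := rfl
  map_smul' _ _ := rfl

omit hρ in
theorem cocValues_injective : Function.Injective (cocValues (M := M) (ρ := ρ)) := fun _ _ h =>
  coc_ext (congrArg Prod.fst h) (congrArg Prod.snd h)

end Fermat.Agent.TwoAdic.Cohom
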