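import Fermat.Agent.TwoAdic.Cohom.Lattice
import Fermat.Agent.TwoAdic.TypeSpace.GoodPart
import Mathlib.RingTheory.Valuation.ValuationSubring

/-!
# LT2 P4b: the lifting inequality over a valuation ring

For a valuation ring `O` of a field `K` and a representation with an `O`-basis: a subspace of
`H¹(Γ₀(M), ·)` over `K` killed by products of factors `T ℓ - a` with `a` reducing to `c ℓ` has
dimension at most that of the `c`-part of `H¹` of the reduction. Integral cocycles with independent
reductions come from an echelon basis of their values at `S` and `U`, so no finiteness of `O` is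
needed.
-/

set_option autoImplicit false

noncomputable section

open CongruenceSubgroup ModularGroup Module
open Fermat.Agent.Periods
open scoped MatrixGroups

namespace Fermat.Agent.TwoAdic.Cohom

section Echelon

variable {K : Type*} [Field K] (O : ValuationSubring K) {k : Type*} [Field k] (res : O →+* k)
  {ι : Type*} [Finite ι]

/-- A subspace has integral vectors, as many as its dimension, with independent reductions. -/
theorem exists_integral_linearIndependent (V : Submodule K (ι → K)) :
    ∃ w : Fin (finrank K V) → ι → O,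
      (∀ j, (fun i => (w j i : K)) ∈ V) ∧ LinearIndependent k fun j i => res (w j i) := by
  suffices h : ∀ n, ∀ V : Submodule K (ι → K), finrank K V = n → ∃ w : Fin n → ι → O,
      (∀ j, (fun i => (w j i : K)) ∈ V) ∧ LinearIndependent k fun j i => res (w j i) from
    h _ V rfl
  intro n
  induction n with
  | zero => exact fun V _ => ⟨Fin.elim0, fun j => j.elim0, linearIndependent_empty_type⟩
  | succ n ih =>
    intro V hV
    have hne : V ≠ ⊥ := fun h => by rw [h, finrank_bot] at hV; omega
    obtain ⟨v, hv, hv0⟩ := Submodule.exists_mem_ne_zero_of_ne_bot hne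
    obtain ⟨j₀, hj₀⟩ := Function.ne_iff.mp hv0
    have : Nonempty ι := ⟨j₀⟩
    obtain ⟨i₀, hi₀⟩ := Finite.exists_max fun i => O.valuation (v i)
    have hvi : v i₀ ≠ 0 := fun h => by
      have h' := hi₀ j₀
      rw [h, map_zero] at h'
      exact hj₀ ((O.valuation.zero_iff).mp (le_antisymm h' bot_le))
    have hmem : ∀ i, v i / v i₀ ∈ O := fun i => by
      rw [← O.valuation_le_one_iff, map_div₀, div_le_one₀ (zero_lt_iff.mpr
        (O.valuation.ne_zero_iff.mpr hvi))]
      exact hi₀ i
    set u : ι → O := fun i => ⟨v i / v i₀, hmem i⟩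
    have hu : (fun i => (u i : K)) ∈ V := by
      have : (fun i => (u i : K)) = (v i₀)⁻¹ • v := funext fun i => by simp [u, div_eq_inv_mul]
      rw [this]
      exact V.smul_mem _ hv
    have hu1 : u i₀ = 1 := Subtype.ext (div_self hvi)
    let f : V →ₗ[K] K := (LinearMap.proj i₀).comp V.subtype
    have hf : Function.Surjective f := fun a => ⟨a • ⟨_, hu⟩, by simp [f, hu1]⟩
    have hker : finrank K (LinearMap.ker f) = n := by
      have := f.finrank_range_add_finrank_ker
      rw [LinearMap.range_eq_top.mpr hf, finrank_top, finrank_self, hV] at this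
      omega
    let V' : Submodule K (ι → K) := (LinearMap.ker f).map V.subtype
    obtain ⟨w, hw, hind⟩ := ih V'
      ((Submodule.equivMapOfInjective _ V.injective_subtype _).finrank_eq.symm.trans hker)
    have hw' : ∀ j, (fun i => (w j i : K)) ∈ V ∧ w j i₀ = 0 := fun j => by
      obtain ⟨x, hx, he⟩ := hw j
      refine ⟨he ▸ x.2, Subtype.ext ?_⟩
      have h0 : (x : ι → K) i₀ = 0 := hx
      have he' : (x : ι → K) i₀ = (w j i₀ : K) := congrFun he i₀
      rw [← he', h0]
      rfl
    refine ⟨Fin.cons u w, fun j => ?_, ?_⟩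
    · refine Fin.cases ?_ (fun j => ?_) j
      · simpa using hu
      · simpa using (hw' j).1
    · have : (fun (j : Fin (n + 1)) i => res ((Fin.cons u w : Fin (n + 1) → ι → O) j i)) =
          Fin.cons (fun i => res (u i)) (fun j i => res (w j i)) := by
        funext j
        refine Fin.cases ?_ (fun j => ?_) j <;> simp
      rw [this, linearIndependent_finCons]
      refine ⟨hind, fun h => ?_⟩
      have hle : Submodule.span k (Set.range fun j i => res (w j i)) ≤
          LinearMap.ker (LinearMap.proj i₀ : (ι → k) →ₗ[k] k) := by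
        rw [Submodule.span_le]
        rintro _ ⟨j, rfl⟩
        simp [(hw' j).2]
      simpa [hu1] using hle h

end Echelon

variable {D M : ℕ}

section Coords

variable {k : Type*} [CommRing k] {A : Type*} [AddCommGroup A] [Module k A]
  {ρ : Representation k (GL (Fin 2) (ZMod D)) A} {κb : Type*} [Finite κb]

local notation "X" => (SL(2, ℤ) ⧸ Gamma0 M)

/-- Coordinates of the values of a cocycle at `S` and `U`. -/
def cocCoords (b : Basis κb k A) : cocycles M ρ →ₗ[k] ((X ⊕ X) × κb → k) where
  toFun f p := b.repr (Sum.elim (coc f S) (coc f genU) p.1) p.2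
  map_add' f g := funext fun ⟨x, j⟩ => by
    cases x <;> simp [coc]
  map_smul' a f := funext fun ⟨x, j⟩ => by
    cases x <;> simp [coc]

theorem cocCoords_inl (b : Basis κb k A) (f : cocycles M ρ) (x : X) (j : κb) :
    cocCoords b f (Sum.inl x, j) = b.repr (coc f S x) j := rfl

theorem cocCoords_inr (b : Basis κb k A) (f : cocycles M ρ) (x : X) (j : κb) :
    cocCoords b f (Sum.inr x, j) = b.repr (coc f genU x) j := rfl

theorem cocCoords_injective (b : Basis κb k A) :
    Function.Injective (cocCoords (M := M) (ρ := ρ) b) := fun f g h => by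
  refine coc_ext (funext fun x => ?_) (funext fun x => ?_) <;>
    refine b.repr.injective (Finsupp.ext fun j => ?_)
  · exact congrFun h (Sum.inl x, j)
  · exact congrFun h (Sum.inr x, j)

end Coords

section SemilinearCoords

variable {O k : Type*} [CommRing O] [CommRing k] {f₀ : O →+* k} {A B : Type*} [AddCommGroup A]
  [Module O A] [AddCommGroup B] [Module k B] {ρ : Representation O (GL (Fin 2) (ZMod D)) A}
  {σ : Representation k (GL (Fin 2) (ZMod D)) B} {κb : Type*} [Finite κb]

theorem repr_map_of_basis (u : A →ₛₗ[f₀] B) (bA : Basis κb O A) (bB : Basis κb k B)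
    (hb : ∀ i, u (bA i) = bB i) (a : A) (j : κb) : bB.repr (u a) j = f₀ (bA.repr a j) := by
  have := Fintype.ofFinite κb
  classical
  have h : u a = ∑ i, f₀ (bA.repr a i) • bB i := by
    conv_lhs => rw [← bA.sum_repr a]
    rw [map_sum]
    exact Finset.sum_congr rfl fun i _ => by rw [map_smulₛₗ, hb]
  rw [h, bB.repr_sum_self]

theorem cocCoords_cocyclesMapₛ (u : A →ₛₗ[f₀] B) (hu : ∀ g a, u (ρ g a) = σ g (u a))
    (bA : Basis κb O A) (bB : Basis κb k B) (hb : ∀ i, u (bA i) = bB i) (f : cocycles M ρ)
    (p : ((SL(2, ℤ) ⧸ Gamma0 M) ⊕ (SL(2, ℤ) ⧸ Gamma0 M)) × κb) :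
    cocCoords bB (cocyclesMapₛ u hu f) p = f₀ (cocCoords bA f p) := by
  obtain ⟨x | x, j⟩ := p <;> exact repr_map_of_basis u bA bB hb _ j

theorem onCocycles_cocyclesMapₛ (u : A →ₛₗ[f₀] B) (hu : ∀ g a, u (ρ g a) = σ g (u a)) {p : ℕ}
    (hp : p.Prime) (hpD : p.Coprime D) (f : cocycles M ρ) :
    (heckeFamily M hp hpD).onCocycles σ (cocyclesMapₛ u hu f) =
      cocyclesMapₛ u hu ((heckeFamily M hp hpD).onCocycles ρ f) := by
  refine Subtype.ext (funext fun γ => ?_)
  show (heckeFamily M hp hpD).onFun σ (fun δ => u ((f : Gamma0 M → A) δ)) γ =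
    u ((heckeFamily M hp hpD).onFun ρ f γ)
  simp [Family.onFun_apply, hu]

theorem coc_mem_range (u : A →ₛₗ[f₀] B) (hu : ∀ g a, u (ρ g a) = σ g (u a)) (F : cocycles M σ)
    (hS : ∀ x, coc F S x ∈ Set.range u) (hU : ∀ x, coc F genU x ∈ Set.range u)
    (huinj : Function.Injective u) : ∃ f : cocycles M ρ, cocyclesMapₛ u hu f = F := by
  have hadd : ∀ v w, v ∈ Set.range u → w ∈ Set.range u → v + w ∈ Set.range u := by
    rintro _ _ ⟨v, rfl⟩ ⟨w, rfl⟩; exact ⟨v + w, map_add u v w⟩
  let P : Subgroup SL(2, ℤ) :=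
    { carrier := {g | ∀ x, coc F g x ∈ Set.range u}
      one_mem' := fun x => by
        have h : tran (M := M) 1 x = 1 := Subtype.ext (by simp [tran])
        exact ⟨0, by rw [map_zero, coc, h, cocycle_one]⟩
      mul_mem' := fun {g h} hg hh x => by
        rw [coc_mul]
        obtain ⟨w, hw⟩ := hh x
        exact hadd _ _ (hg _) ⟨ρ _ w, by rw [hu, hw]⟩
      inv_mem' := fun {g} hg x => by
        have h : tran g⁻¹ x = (tran g (g⁻¹ • x))⁻¹ := by
          apply Subtype.ext
          simp [tran, mul_assoc]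
        obtain ⟨w, hw⟩ := hg (g⁻¹ • x)
        refine ⟨-(ρ (redHom D _ (tran g (g⁻¹ • x))⁻¹) w), ?_⟩
        rw [map_neg, hu, hw, coc, coc, h, cocycle_inv] }
  have htop : ∀ g : SL(2, ℤ), g ∈ P := fun g => by
    have : (⊤ : Subgroup SL(2, ℤ)) ≤ P := by
      rw [← SpecialLinearGroup.SL2Z_generators, Subgroup.closure_le]
      rintro g (rfl | rfl)
      exacts [hS, by rw [← S_inv_mul_genU]; exact P.mul_mem (P.inv_mem hS) hU]
    exact this trivial
  set x₀ := baseCoset (Gamma0 M)
  let o : Gamma0 M := ⟨x₀.out, (smul_baseCoset_eq_iff _).1 (smul_baseCoset_out _)⟩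
  have hval : ∀ γ, (F : Gamma0 M → B) γ ∈ Set.range u := fun γ => by
    have ht : tran ((o : SL(2, ℤ)) * γ * (o : SL(2, ℤ))⁻¹) x₀ = γ := by
      apply Subtype.ext
      show ((_ : SL(2, ℤ)) • x₀).out⁻¹ * _ * x₀.out = _
      rw [(smul_baseCoset_eq_iff _).2 (Subgroup.mul_mem _ (Subgroup.mul_mem _ o.2 γ.2)
        (Subgroup.inv_mem _ o.2))]
      simp [o, x₀, mul_assoc]
    have := htop ((o : SL(2, ℤ)) * γ * (o : SL(2, ℤ))⁻¹) x₀
    rwa [coc, ht] at this
  choose g hg using hval
  refine ⟨⟨g, fun γ δ => huinj ?_, huinj ?_⟩, Subtype.ext (funext hg)⟩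
  · rw [hg, map_add, hu, hg, hg, F.2.1]
  · rw [hg, map_zero, F.2.2]

end SemilinearCoords

section Main

variable {K : Type*} [Field K] {O : ValuationSubring K} {k : Type*} [Field k] {res : O →+* k}
  {Λ Vk VK : Type*} [AddCommGroup Λ] [Module O Λ] [AddCommGroup Vk] [Module k Vk]
  [AddCommGroup VK] [Module K VK]
  {ρO : Representation O (GL (Fin 2) (ZMod D)) Λ} {ρk : Representation k (GL (Fin 2) (ZMod D)) Vk}
  {ρK : Representation K (GL (Fin 2) (ZMod D)) VK} {κb : Type*} [Finite κb]

set_option maxHeartbeats 1000000 in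
/-- **The lifting inequality over a valuation ring.** -/
theorem finrank_le_heckePart_of_valuation [NeZero M] (bO : Basis κb O Λ) (bK : Basis κb K VK)
    (bk : Basis κb k Vk) (ι : Λ →ₛₗ[O.subtype] VK) (hι : ∀ g a, ι (ρO g a) = ρK g (ι a))
    (hιb : ∀ i, ι (bO i) = bK i) (r : Λ →ₛₗ[res] Vk) (hr : ∀ g a, r (ρO g a) = ρk g (r a))
    (hrb : ∀ i, r (bO i) = bk i) (hres : Function.Surjective res) (hρO : ρO (-1) = 1) {S : Set ℕ} (hS : GoodPrimes D S)
    {c : ℕ → k} (B : Submodule K (H1 M ρK))
    (hchar : ∀ (ℓ : S), ∀ x ∈ B, ∃ l : List O, (∀ a ∈ l, res a = c ℓ) ∧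
      ((l.map fun a => (opsH1 hS ρK ℓ - O.subtype a • (1 : Module.End K (H1 M ρK)) :
        Module.End K (H1 M ρK))).prod : Module.End K (H1 M ρK)) x = 0) :
    finrank K B ≤ finrank k (heckePart M hS c ρk) := by
  classical
  have := Fintype.ofFinite κb
  have : Fintype (SL(2, ℤ) ⧸ Gamma0 M) := Fintype.ofFinite _
  have : FiniteDimensional K VK := Module.Finite.of_basis bK
  have : FiniteDimensional k Vk := Module.Finite.of_basis bk
  have : FiniteDimensional K (cocycles M ρK) :=
    FiniteDimensional.of_injective cocValues cocValues_injective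
  have : FiniteDimensional k (cocycles M ρk) :=
    FiniteDimensional.of_injective cocValues cocValues_injective
  have := finiteDimensional_H1 (M := M) ρk
  have hsub : Function.Injective O.subtype := Subtype.val_injective
  have hιinj : Function.Injective ι := fun a a' h => bO.repr.injective (Finsupp.ext fun j =>
    hsub (by rw [← repr_map_of_basis ι bO bK hιb, h, repr_map_of_basis ι bO bK hιb]))
  -- integral cocycles in the preimage of `B`
  set B' : Submodule K (cocycles M ρK) := B.comap (coboundaries M ρK).mkQ with hB'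
  have hdimB : finrank K B' = finrank K B + finrank K (coboundaries M ρK) := by
    let φ : B' →ₗ[K] B := ((coboundaries M ρK).mkQ.comp B'.subtype).codRestrict _ fun x => x.2
    have hφ : Function.Surjective φ := fun b => by
      obtain ⟨F, hF⟩ := Submodule.mkQ_surjective _ (b : H1 M ρK)
      exact ⟨⟨F, by rw [hB', Submodule.mem_comap, hF]; exact b.2⟩, Subtype.ext hF⟩
    have hker : LinearMap.ker φ = (coboundaries M ρK).comap B'.subtype := by
      ext x
      rw [LinearMap.mem_ker, Submodule.mem_comap, ← Submodule.Quotient.mk_eq_zero]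
      exact ⟨fun h => congrArg Subtype.val h, fun h => Subtype.ext h⟩
    have hle : coboundaries M ρK ≤ B' := fun F hF => by
      rw [hB', Submodule.mem_comap, Submodule.mkQ_apply, (Submodule.Quotient.mk_eq_zero _).mpr hF]
      exact zero_mem _
    have h := LinearMap.finrank_range_add_finrank_ker (K := K) (V := B') (V₂ := B) φ
    rw [LinearMap.range_eq_top.mpr hφ, finrank_top, hker,
      (Submodule.comapSubtypeEquivOfLe hle).finrank_eq] at h
    exact h.symm
  set V := B'.map (cocCoords bK) with hV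
  have hdimV : finrank K V = finrank K B' :=
    (Submodule.equivMapOfInjective _ (cocCoords_injective bK) _).finrank_eq.symm
  obtain ⟨w, hw, hind⟩ := exists_integral_linearIndependent O res V
  choose F hFB hF using hw
  have hint : ∀ {a : VK}, (∀ i, bK.repr a i ∈ O) → a ∈ Set.range ι := fun {a} ha =>
    ⟨∑ i, (⟨_, ha i⟩ : O) • bO i, by
      rw [map_sum]
      simp only [map_smulₛₗ, hιb]
      exact bK.sum_repr a⟩
  have hg : ∀ j, ∃ g : cocycles M ρO, cocyclesMapₛ ι hι g = F j := fun j => by
    refine coc_mem_range ι hι (F j) (fun x => hint fun i => ?_) (fun x => hint fun i => ?_) hιinj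
    · rw [← cocCoords_inl, congrFun (hF j) (Sum.inl x, i)]
      exact Subtype.coe_prop _
    · rw [← cocCoords_inr, congrFun (hF j) (Sum.inr x, i)]
      exact Subtype.coe_prop _
  choose g hg using hg
  have hred : LinearIndependent k fun j => cocyclesMapₛ r hr (g j) := by
    refine LinearIndependent.of_comp (cocCoords bk) ?_
    convert hind using 1
    funext j p
    show cocCoords bk (cocyclesMapₛ r hr (g j)) p = _
    rw [cocCoords_cocyclesMapₛ r hr bO bk hrb]
    refine congrArg res (hsub ?_)
    rw [← cocCoords_cocyclesMapₛ ι hι bO bK hιb, hg, congrFun (hF j) p]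
    rfl
  -- the reduction of the integral coboundaries
  set s₀ : Set (cocycles M ρk) :=
    cocyclesMapₛ r hr '' {g | cocyclesMapₛ ι hι g ∈ coboundaries M ρK} with hs₀
  set R₀ := Submodule.span k s₀ with hR₀
  have hdimR : finrank k R₀ ≤ finrank K (coboundaries M ρK) := by
    obtain ⟨b, hb, hspan, hbi⟩ := exists_linearIndependent k s₀
    have : Finite b := hbi.finite
    have := Fintype.ofFinite b
    choose h hh hhr using fun x : b => hb x.2
    have hli : LinearIndependent K fun x : b => cocyclesMapₛ ι hι (h x) := by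
      refine LinearIndependent.of_comp (cocCoords bK) ?_
      have hk : LinearIndependent k fun x : b => fun p => res (cocCoords bO (h x) p) := by
        have e : (fun x : b => fun p => res (cocCoords bO (h x) p)) =
            cocCoords bk ∘ ((↑) : b → cocycles M ρk) := by
          funext x p
          rw [Function.comp_apply, ← cocCoords_cocyclesMapₛ r hr bO bk hrb, hhr]
        rw [e]
        exact hbi.map' (cocCoords bk) (LinearMap.ker_eq_bot.mpr (cocCoords_injective bk))
      convert TypeSpace.linearIndependent_of_red O.subtype hsub res _ hk using 1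
      funext x p
      exact cocCoords_cocyclesMapₛ ι hι bO bK hιb _ p
    have hli' : LinearIndependent K fun x : b =>
        (⟨_, hh x⟩ : coboundaries M ρK) := LinearIndependent.of_comp (Submodule.subtype _) hli
    have := finrank_span_eq_card hbi
    rw [Subtype.range_coe, hspan] at this
    rw [hR₀, this]
    exact hli'.fintype_card_le_finrank
  choose l hl using hres
  have hrs : Function.Surjective r := fun a => ⟨∑ i, l (bk.repr a i) • bO i, by
    rw [map_sum]
    simp only [map_smulₛₗ, hrb, hl]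
    exact bk.sum_repr a⟩
  have hcob : coboundaries M ρk ≤ R₀ := fun f hf => by
    obtain ⟨b, hb⟩ := hf
    obtain ⟨a, rfl⟩ := hrs b
    refine Submodule.subset_span ⟨⟨cobound M ρO a, cobound_mem M ρO hρO a⟩, ⟨ι a, funext fun γ => ?_⟩,
      Subtype.ext (funext fun γ => ?_)⟩
    · show ρK (redHom D _ γ) (ι a) - ι a = ι (ρO (redHom D _ γ) a - a)
      rw [map_sub, hι]
    · rw [show (f : Gamma0 M → Vk) γ = cobound M ρk (r a) γ from (congrFun hb γ).symm]
      show r (ρO (redHom D _ γ) a - a) = _
      rw [map_sub, hr]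
      rfl
  -- operators on the quotient
  let Tc : S → Module.End k (cocycles M ρk) := fun ℓ =>
    (heckeFamily M (hS ℓ ℓ.2).1 (hS ℓ ℓ.2).2).onCocycles ρk
  have hstab : ∀ ℓ, R₀ ≤ R₀.comap (Tc ℓ) := fun ℓ => by
    rw [hR₀, Submodule.span_le]
    rintro _ ⟨h, ⟨a, ha⟩, rfl⟩
    refine Submodule.subset_span ⟨(heckeFamily M (hS ℓ ℓ.2).1 (hS ℓ ℓ.2).2).onCocycles ρO h,
      ⟨(heckeFamily M (hS ℓ ℓ.2).1 (hS ℓ ℓ.2).2).sumInv ρK a, ?_⟩, ?_⟩
    · rw [← onCocycles_cocyclesMapₛ, ← Family.onFun_cobound]
      exact congrArg ((heckeFamily M (hS ℓ ℓ.2).1 (hS ℓ ℓ.2).2).onFun ρK) ha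
    · exact (onCocycles_cocyclesMapₛ r hr _ _ h).symm
  let Tq : S → Module.End k (cocycles M ρk ⧸ R₀) := fun ℓ => Submodule.mapQ R₀ R₀ (Tc ℓ) (hstab ℓ)
  let q : H1 M ρk →ₗ[k] cocycles M ρk ⧸ R₀ :=
    Submodule.liftQ _ R₀.mkQ (by rw [Submodule.ker_mkQ]; exact hcob)
  have hq : ∀ ℓ x, q (opsH1 hS ρk ℓ x) = Tq ℓ (q x) := fun ℓ x => by
    obtain ⟨f, rfl⟩ := Submodule.Quotient.mk_surjective _ x
    rfl
  have hqs : ∀ z, z ∈ LinearMap.range q := fun z => by
    obtain ⟨f, rfl⟩ := Submodule.mkQ_surjective _ z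
    exact ⟨Submodule.Quotient.mk f, rfl⟩
  -- everything comes from the part
  set P := (heckePart M hS c ρk).map q with hP
  have hmem : ∀ j, R₀.mkQ (cocyclesMapₛ r hr (g j)) ∈ P := fun j => by
    have hz : R₀.mkQ (cocyclesMapₛ r hr (g j)) ∈ part Tq (fun ℓ : S => c ℓ) := by
      refine mem_part.mpr fun ℓ => ?_
      obtain ⟨la, hla, hla0⟩ := hchar ℓ _ (hFB j)
      refine ⟨la.length, ?_⟩
      set TO := (heckeFamily M (hS ℓ ℓ.2).1 (hS ℓ ℓ.2).2).onCocycles ρO
      let uK : cocycles M ρO →ₛₗ[O.subtype] H1 M ρK :=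
        (coboundaries M ρK).mkQ.comp (cocyclesMapₛ ι hι)
      let uk : cocycles M ρO →ₛₗ[res] cocycles M ρk ⧸ R₀ := R₀.mkQ.comp (cocyclesMapₛ r hr)
      have huK : ∀ x, uK (TO x) = opsH1 hS ρK ℓ (uK x) := fun x =>
        congrArg Submodule.Quotient.mk (onCocycles_cocyclesMapₛ ι hι _ _ x).symm
      have huk : ∀ x, uk (TO x) = Tq ℓ (uk x) := fun x =>
        congrArg Submodule.Quotient.mk (onCocycles_cocyclesMapₛ r hr _ _ x).symm
      set y := ((la.map fun a => (TO - a • (1 : Module.End O (cocycles M ρO)) :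
        Module.End O (cocycles M ρO))).prod : Module.End O (cocycles M ρO)) (g j) with hy_def
      have hy : uK y = 0 := by
        rw [hy_def, map_listProd_sub uK huK la (g j),
          show uK (g j) = Submodule.Quotient.mk (F j) from congrArg Submodule.Quotient.mk (hg j)]
        exact hla0
      have hred0 : uk y = 0 :=
        (Submodule.Quotient.mk_eq_zero _).mpr
          (Submodule.subset_span ⟨y, (Submodule.Quotient.mk_eq_zero _).mp hy, rfl⟩)
      rw [hy_def, map_listProd_sub uk huk la (g j), listProd_replicate _ la hla] at hred0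
      exact hred0
    obtain ⟨v, hv, hvq⟩ := exists_mem_part_map_eq (T := opsH1 hS ρk)
      (fun i i' => heckeH1_commute ρk _ _ _ _) q hq hz (hqs _)
    exact ⟨v, hv, hvq⟩
  -- count
  set R := Submodule.span k (Set.range fun j => cocyclesMapₛ r hr (g j))
  have hdim : finrank k R = finrank K V := (finrank_span_eq_card hred).trans (Fintype.card_fin _)
  let γR : R →ₗ[k] cocycles M ρk ⧸ R₀ := R₀.mkQ.comp R.subtype
  have h1 := LinearMap.finrank_range_add_finrank_ker (K := k) (V := R) (V₂ := cocycles M ρk ⧸ R₀) γR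
  have h2 : finrank k (LinearMap.ker γR) ≤ finrank k R₀ :=
    LinearMap.finrank_le_finrank_of_injective
      (f := (R.subtype.comp (LinearMap.ker γR).subtype).codRestrict R₀ fun x =>
        (Submodule.Quotient.mk_eq_zero _).mp x.2)
      fun x y h => Subtype.ext (Subtype.ext (congrArg Subtype.val h :))
  have h3 : LinearMap.range γR ≤ P := by
    rw [LinearMap.range_comp, Submodule.range_subtype, Submodule.map_span, Submodule.span_le]
    rintro _ ⟨_, ⟨j, rfl⟩, rfl⟩
    exact hmem j
  have h4 := (Submodule.finrank_mono h3).trans (Submodule.finrank_map_le _ _)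
  omega

end Main

end Fermat.Agent.TwoAdic.Cohom
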